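import Mathlib
import Fermat.Prelude.Thm_IsAdicComplete_of_module_finite

/-!
# PROJECT J, slice J-5-T: the abstract Tate module of an abelian group

For an abelian group `J` and a prime `p` the Tate module `Tp p J` is the group of sequences
`x : ℕ → J` with `x 0 = 0` and `p • x (k + 1) = x k`.  It is a module over `ℤ_[p]`, functorial in
additive homomorphisms of `J`; it only depends on the `p`-power torsion of `J`.

* `Tp p J`, `Tp.apply_zero`, `Tp.smul_apply_succ`, `Tp.pow_smul_apply`, `Tp.coe_smul_apply`.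
* `Tp.map f : Tp p J →ₗ[ℤ_[p]] Tp p J'`, `Tp.mapEnd : AddMonoid.End J →+* Module.End ℤ_[p] (Tp p J)`,
  `Tp.galoisHom : G →* Module.End ℤ_[p] (Tp p J)` for a `DistribMulAction G J`.
* `Tp.map_eq_zero` : a homomorphism killing the `p`-power torsion induces zero.
* `Tp.exists_eq_pow_smul` : `x n = 0` implies `x ∈ pⁿ Tp`; `Tp.exists_map_sub_eq_pow_smul` : an
  endomorphism fixing `J[pⁿ]` pointwise is congruent to `1` modulo `pⁿ`.
* `Tp.instIsTorsionFree`, `Tp.instIsHausdorff`, `Tp.finite_of_finite`, `Tp.free_of_finite` :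
  if `J[p]` is finite then `Tp p J` is a finite free `ℤ_[p]`-module.
* `surjective_of_precomplete` : a principal-ideal form of the complete Nakayama lemma.
* `Tp.map_bijective` : a homomorphism which is bijective on `pⁿ`-torsion for all `n` induces a
  bijection of Tate modules.
-/

set_option autoImplicit false
set_option linter.unusedSectionVars false
set_option linter.style.haveILetI false

noncomputable section

namespace Fermat.Agent.S30.Padic.TateModule

/-! ### Generalities -/

theorem nsmul_congr {J : Type*} [AddCommGroup J] {n m m' : ℕ} (h : m ≡ m' [MOD n]) {y : J}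
    (hy : n • y = 0) : m • y = m' • y := by
  have key : ∀ a : ℕ, a • y = (a % n) • y := by
    intro a
    conv_lhs => rw [← Nat.div_add_mod a n]
    rw [add_nsmul, mul_nsmul, hy, smul_zero, zero_add]
  rw [key m, key m', h]

/-- A principal-ideal form of the complete Nakayama lemma. -/
theorem surjective_of_precomplete {R : Type*} [CommRing R] (a : R) {N M : Type*}
    [AddCommGroup N] [Module R N] [AddCommGroup M] [Module R M]
    [IsPrecomplete (Ideal.span {a}) N] [IsHausdorff (Ideal.span {a}) M] (φ : N →ₗ[R] M)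
    (h : ∀ y : M, ∃ c : N, ∃ y' : M, y = φ c + a • y') : Function.Surjective φ := by
  intro x
  choose c y' hy using h
  let s : ℕ → N × M := fun n =>
    Nat.rec (0, x) (fun n s => (s.1 + a ^ n • c s.2, y' s.2)) n
  have hs0 : s 0 = (0, x) := rfl
  have hs1 : ∀ n, s (n + 1) = ((s n).1 + a ^ n • c (s n).2, y' (s n).2) := fun n => rfl
  have hinv : ∀ n, x = φ (s n).1 + a ^ n • (s n).2 := by
    intro n
    induction n with
    | zero => simp [hs0]
    | succ n ih =>
      rw [hs1]
      simp only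
      conv_lhs => rw [ih, hy (s n).2]
      rw [map_add, map_smul, smul_add, smul_smul, pow_succ, add_assoc]
  have hmem : ∀ n, a ^ n ∈ Ideal.span {a} ^ n := fun n =>
    Ideal.pow_mem_pow (Ideal.mem_span_singleton_self a) n
  have hcau : ∀ {m n : ℕ}, m ≤ n →
      (s m).1 ≡ (s n).1 [SMOD (Ideal.span {a} ^ m • ⊤ : Submodule R N)] := by
    intro m n hmn
    induction n, hmn using Nat.le_induction with
    | base => exact SModEq.rfl
    | succ n hmn ih =>
      refine ih.trans ?_
      rw [hs1, SModEq.sub_mem]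
      simp only [sub_add_cancel_left]
      refine Submodule.neg_mem _ ?_
      exact Submodule.smul_mem_smul (Ideal.pow_le_pow_right hmn (hmem n)) Submodule.mem_top
  obtain ⟨L, hL⟩ := IsPrecomplete.prec' (I := Ideal.span {a}) (fun n => (s n).1) hcau
  refine ⟨L, ?_⟩
  symm
  rw [← sub_eq_zero]
  refine IsHausdorff.haus' (I := Ideal.span {a}) _ fun n => ?_
  rw [SModEq.zero]
  have h1 : x - φ L = φ ((s n).1 - L) + a ^ n • (s n).2 := by
    rw [map_sub]
    conv_lhs => rw [hinv n]
    abel
  rw [h1]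
  refine Submodule.add_mem _ ?_ (Submodule.smul_mem_smul (hmem n) Submodule.mem_top)
  have h2 : (s n).1 - L ∈ (Ideal.span {a} ^ n • ⊤ : Submodule R N) := by
    rw [← SModEq.sub_mem]
    exact hL n
  have h3 := Submodule.mem_map_of_mem (f := φ) h2
  rw [Submodule.map_smul''] at h3
  exact Submodule.smul_mono le_rfl le_top h3

/-! ### The Tate module -/

variable (p : ℕ) [hp : Fact p.Prime] (J : Type*) [AddCommGroup J]

/-- The Tate module of an abelian group: compatible sequences of `p`-power torsion elements. -/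
def Tp : AddSubgroup (ℕ → J) where
  carrier := {x | x 0 = 0 ∧ ∀ k, p • x (k + 1) = x k}
  zero_mem' := ⟨rfl, fun k => by simp⟩
  add_mem' := by
    rintro x y ⟨hx0, hx⟩ ⟨hy0, hy⟩
    exact ⟨by simp [hx0, hy0], fun k => by simp [smul_add, hx k, hy k]⟩
  neg_mem' := by
    rintro x ⟨hx0, hx⟩
    exact ⟨by simp [hx0], fun k => by simp [hx k]⟩

namespace Tp

variable {p J}

theorem apply_zero (x : Tp p J) : x.1 0 = 0 := x.2.1

theorem smul_apply_succ (x : Tp p J) (k : ℕ) : p • x.1 (k + 1) = x.1 k := x.2.2 k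

theorem pow_smul_apply_add (x : Tp p J) (k m : ℕ) : p ^ m • x.1 (k + m) = x.1 k := by
  induction m with
  | zero => simp
  | succ m ih => rw [pow_succ, mul_nsmul', ← add_assoc, smul_apply_succ, ih]

theorem pow_smul_apply (x : Tp p J) (k : ℕ) : p ^ k • x.1 k = 0 := by
  have := pow_smul_apply_add x 0 k
  rwa [zero_add, apply_zero] at this

theorem apply_eq_zero_of_le (x : Tp p J) {k n : ℕ} (h : k ≤ n) (hn : x.1 n = 0) : x.1 k = 0 := by
  obtain ⟨m, rfl⟩ := Nat.exists_eq_add_of_le h
  rw [← pow_smul_apply_add x k m, hn, smul_zero]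

theorem isTorsion_apply (x : Tp p J) (k : ℕ) : ∃ n : ℕ, p ^ n • x.1 k = 0 :=
  ⟨k, pow_smul_apply x k⟩

@[ext]
theorem ext {x y : Tp p J} (h : ∀ k, x.1 k = y.1 k) : x = y := Subtype.ext (funext h)

@[simp] theorem coe_zero_apply (k : ℕ) : (0 : Tp p J).1 k = 0 := rfl

@[simp] theorem coe_add_apply (x y : Tp p J) (k : ℕ) : (x + y).1 k = x.1 k + y.1 k := rfl

@[simp] theorem coe_neg_apply (x : Tp p J) (k : ℕ) : (-x).1 k = -x.1 k := rfl

@[simp] theorem coe_sub_apply (x y : Tp p J) (k : ℕ) : (x - y).1 k = x.1 k - y.1 k := rfl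

/-! ### The `ℤ_[p]`-module structure -/

theorem toZModPow_eq (a : ℤ_[p]) (k : ℕ) :
    PadicInt.toZModPow k a = ((a.appr k : ℕ) : ZMod (p ^ k)) := rfl

theorem appr_add_modEq (a b : ℤ_[p]) (k : ℕ) :
    (a + b).appr k ≡ a.appr k + b.appr k [MOD p ^ k] := by
  rw [← ZMod.natCast_eq_natCast_iff, Nat.cast_add, ← toZModPow_eq, ← toZModPow_eq,
    ← toZModPow_eq, map_add]

theorem appr_mul_modEq (a b : ℤ_[p]) (k : ℕ) :
    (a * b).appr k ≡ a.appr k * b.appr k [MOD p ^ k] := by
  rw [← ZMod.natCast_eq_natCast_iff, Nat.cast_mul, ← toZModPow_eq, ← toZModPow_eq,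
    ← toZModPow_eq, map_mul]

theorem appr_natCast_modEq (n k : ℕ) : ((n : ℤ_[p])).appr k ≡ n [MOD p ^ k] := by
  rw [← ZMod.natCast_eq_natCast_iff, ← toZModPow_eq, map_natCast]

theorem appr_one_modEq (k : ℕ) : (1 : ℤ_[p]).appr k ≡ 1 [MOD p ^ k] := by
  have := appr_natCast_modEq (p := p) 1 k
  rwa [Nat.cast_one] at this

theorem appr_zero_modEq (k : ℕ) : (0 : ℤ_[p]).appr k ≡ 0 [MOD p ^ k] := by
  have := appr_natCast_modEq (p := p) 0 k
  rwa [Nat.cast_zero] at this

theorem appr_succ_modEq (a : ℤ_[p]) (k : ℕ) : a.appr (k + 1) ≡ a.appr k [MOD p ^ k] := by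
  rw [← ZMod.natCast_eq_natCast_iff, ← toZModPow_eq,
    ← PadicInt.cast_toZModPow k (k + 1) (Nat.le_succ k) a, toZModPow_eq,
    ZMod.cast_natCast (pow_dvd_pow p (Nat.le_succ k))]

instance instSMul : SMul ℤ_[p] (Tp p J) where
  smul a x := ⟨fun k => a.appr k • x.1 k, by
    refine ⟨by simp [apply_zero], fun k => ?_⟩
    rw [smul_comm, smul_apply_succ]
    exact nsmul_congr (appr_succ_modEq a k) (pow_smul_apply x k)⟩

theorem coe_smul_apply (a : ℤ_[p]) (x : Tp p J) (k : ℕ) : (a • x).1 k = a.appr k • x.1 k := rfl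

/-- The scalar action through any representative modulo `p ^ k`. -/
theorem coe_smul_apply_of_modEq (a : ℤ_[p]) (x : Tp p J) (k : ℕ) {m : ℕ}
    (h : a.appr k ≡ m [MOD p ^ k]) : (a • x).1 k = m • x.1 k :=
  nsmul_congr h (pow_smul_apply x k)

instance instModule : Module ℤ_[p] (Tp p J) where
  one_smul x := by
    ext k
    rw [coe_smul_apply_of_modEq _ _ _ (appr_one_modEq k), one_nsmul]
  mul_smul a b x := by
    ext k
    rw [coe_smul_apply_of_modEq _ _ _ (appr_mul_modEq a b k), coe_smul_apply, coe_smul_apply,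
      mul_nsmul']
  smul_zero a := by
    ext k
    rw [coe_smul_apply, coe_zero_apply, smul_zero]
  smul_add a x y := by
    ext k
    rw [coe_smul_apply, coe_add_apply, coe_add_apply, coe_smul_apply, coe_smul_apply, smul_add]
  add_smul a b x := by
    ext k
    rw [coe_smul_apply_of_modEq _ _ _ (appr_add_modEq a b k), coe_add_apply, coe_smul_apply,
      coe_smul_apply, add_nsmul]
  zero_smul x := by
    ext k
    rw [coe_smul_apply_of_modEq _ _ _ (appr_zero_modEq k), zero_nsmul, coe_zero_apply]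

theorem coe_natCast_smul_apply (n : ℕ) (x : Tp p J) (k : ℕ) :
    ((n : ℤ_[p]) • x).1 k = n • x.1 k :=
  coe_smul_apply_of_modEq _ _ _ (appr_natCast_modEq n k)

theorem coe_pow_smul_apply (n : ℕ) (x : Tp p J) (k : ℕ) :
    (((p : ℤ_[p]) ^ n) • x).1 k = p ^ n • x.1 k := by
  rw [← Nat.cast_pow, coe_natCast_smul_apply]

theorem coe_intCast_smul_apply (n : ℤ) (x : Tp p J) (k : ℕ) :
    ((n : ℤ_[p]) • x).1 k = n • x.1 k := by
  obtain ⟨m, rfl | rfl⟩ := n.eq_nat_or_neg
  · rw [Int.cast_natCast, coe_natCast_smul_apply, natCast_zsmul]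
  · rw [Int.cast_neg, Int.cast_natCast, neg_smul, coe_neg_apply, coe_natCast_smul_apply, neg_smul,
      natCast_zsmul]

/-! ### Functoriality -/

variable {J' : Type*} [AddCommGroup J'] {J'' : Type*} [AddCommGroup J'']

/-- The map of Tate modules induced by an additive homomorphism. -/
def map (f : J →+ J') : Tp p J →ₗ[ℤ_[p]] Tp p J' where
  toFun x := ⟨fun k => f (x.1 k), by
    refine ⟨by simp [apply_zero], fun k => ?_⟩
    rw [← map_nsmul, smul_apply_succ]⟩
  map_add' x y := by
    ext k
    simp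
  map_smul' a x := by
    ext k
    simp [coe_smul_apply]

@[simp] theorem coe_map_apply (f : J →+ J') (x : Tp p J) (k : ℕ) : (map f x).1 k = f (x.1 k) := rfl

theorem map_id : map (AddMonoidHom.id J) = (LinearMap.id : Tp p J →ₗ[ℤ_[p]] Tp p J) := by
  ext x k
  rfl

theorem map_comp (g : J' →+ J'') (f : J →+ J') :
    (map (g.comp f) : Tp p J →ₗ[ℤ_[p]] Tp p J'') = (map g).comp (map f) := by
  ext x k
  rfl

theorem map_add_hom (f g : J →+ J') :
    (map (f + g) : Tp p J →ₗ[ℤ_[p]] Tp p J') = map f + map g := by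
  ext x k
  rfl

theorem map_zero_hom : (map (0 : J →+ J') : Tp p J →ₗ[ℤ_[p]] Tp p J') = 0 := by
  ext x k
  rfl

/-- A homomorphism killing the `p`-power torsion induces the zero map. -/
theorem map_eq_zero (f : J →+ J') (hf : ∀ y : J, (∃ n : ℕ, p ^ n • y = 0) → f y = 0) :
    (map f : Tp p J →ₗ[ℤ_[p]] Tp p J') = 0 := by
  ext x k
  exact hf _ (isTorsion_apply x k)

/-- Two homomorphisms agreeing on the `p`-power torsion induce the same map. -/
theorem map_congr (f g : J →+ J') (hfg : ∀ y : J, (∃ n : ℕ, p ^ n • y = 0) → f y = g y) :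
    (map f : Tp p J →ₗ[ℤ_[p]] Tp p J') = map g := by
  ext x k
  exact hfg _ (isTorsion_apply x k)

/-- The ring homomorphism from additive endomorphisms of `J` to endomorphisms of `Tp p J`. -/
def mapEnd : AddMonoid.End J →+* Module.End ℤ_[p] (Tp p J) where
  toFun f := map f
  map_one' := map_id
  map_mul' f g := map_comp f g
  map_zero' := map_zero_hom
  map_add' f g := map_add_hom f g

@[simp] theorem coe_mapEnd_apply (f : AddMonoid.End J) (x : Tp p J) (k : ℕ) :
    (mapEnd f x).1 k = f (x.1 k) := rfl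

theorem mapEnd_natCast_smul_one (n : ℕ) :
    mapEnd (p := p) (n • (1 : AddMonoid.End J)) = (n : ℤ_[p]) • (1 : Module.End ℤ_[p] (Tp p J)) := by
  ext x k
  rw [LinearMap.smul_apply, Module.End.one_apply, coe_natCast_smul_apply, coe_mapEnd_apply]
  rfl

theorem mapEnd_intCast_smul_one (n : ℤ) :
    mapEnd (p := p) (n • (1 : AddMonoid.End J)) = (n : ℤ_[p]) • (1 : Module.End ℤ_[p] (Tp p J)) := by
  ext x k
  rw [LinearMap.smul_apply, Module.End.one_apply, coe_intCast_smul_apply, coe_mapEnd_apply]
  rfl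

/-- The action on the Tate module induced by an action on `J`. -/
def galoisHom (G : Type*) [Monoid G] [DistribMulAction G J] :
    G →* Module.End ℤ_[p] (Tp p J) :=
  (mapEnd (p := p) (J := J)).toMonoidHom.comp (DistribMulAction.toAddMonoidEnd G J)

@[simp] theorem coe_galoisHom_apply {G : Type*} [Monoid G] [DistribMulAction G J] (σ : G)
    (x : Tp p J) (k : ℕ) : (galoisHom G σ x).1 k = σ • x.1 k := rfl

/-- Operators commuting with the action on `J` commute with the action on the Tate module. -/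
theorem commute_galoisHom_mapEnd {G : Type*} [Monoid G] [DistribMulAction G J] (σ : G)
    (f : AddMonoid.End J) (h : ∀ y : J, f (σ • y) = σ • f y) :
    Commute (galoisHom (p := p) G σ) (mapEnd f) := by
  ext x k
  exact (h _).symm

/-! ### Divisibility -/

/-- The shifted sequence. -/
def shift (x : Tp p J) (n : ℕ) (h : x.1 n = 0) : Tp p J :=
  ⟨fun k => x.1 (k + n), by
    refine ⟨by simpa using h, fun k => ?_⟩
    change p • x.1 (k + 1 + n) = x.1 (k + n)
    rw [show k + 1 + n = (k + n) + 1 by ring]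
    exact smul_apply_succ x (k + n)⟩

theorem pow_smul_shift (x : Tp p J) (n : ℕ) (h : x.1 n = 0) :
    ((p : ℤ_[p]) ^ n) • shift x n h = x := by
  ext k
  rw [coe_pow_smul_apply]
  exact pow_smul_apply_add x k n

/-- A sequence vanishing at level `n` is divisible by `p ^ n`. -/
theorem exists_eq_pow_smul (x : Tp p J) (n : ℕ) (h : x.1 n = 0) :
    ∃ y : Tp p J, x = ((p : ℤ_[p]) ^ n) • y :=
  ⟨shift x n h, (pow_smul_shift x n h).symm⟩

theorem pow_smul_apply_self (y : Tp p J) (n : ℕ) : ((((p : ℤ_[p]) ^ n) • y).1 n) = 0 := by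
  rw [coe_pow_smul_apply, pow_smul_apply]

theorem mem_pow_smul_top_iff (x : Tp p J) (n : ℕ) :
    x ∈ (Ideal.span {(p : ℤ_[p])} ^ n • ⊤ : Submodule ℤ_[p] (Tp p J)) ↔ x.1 n = 0 := by
  rw [Ideal.span_singleton_pow, Submodule.ideal_span_singleton_smul,
    Submodule.mem_smul_pointwise_iff_exists]
  constructor
  · rintro ⟨y, -, rfl⟩
    exact pow_smul_apply_self y n
  · intro h
    exact ⟨shift x n h, Submodule.mem_top, pow_smul_shift x n h⟩

/-- An endomorphism of `J` fixing the `p ^ n`-torsion pointwise is congruent to the identity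
modulo `p ^ n` on the Tate module. -/
theorem exists_mapEnd_sub_eq_pow_smul (f : AddMonoid.End J) (n : ℕ)
    (hf : ∀ y : J, p ^ n • y = 0 → f y = y) (x : Tp p J) :
    ∃ y : Tp p J, mapEnd f x - x = ((p : ℤ_[p]) ^ n) • y := by
  apply exists_eq_pow_smul
  rw [coe_sub_apply, coe_mapEnd_apply, hf _ (pow_smul_apply x n), sub_self]

theorem exists_galoisHom_sub_eq_pow_smul {G : Type*} [Monoid G] [DistribMulAction G J] (σ : G)
    (n : ℕ) (hσ : ∀ y : J, p ^ n • y = 0 → σ • y = y) (x : Tp p J) :
    ∃ y : Tp p J, galoisHom G σ x - x = ((p : ℤ_[p]) ^ n) • y :=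
  exists_mapEnd_sub_eq_pow_smul (DistribMulAction.toAddMonoidEnd G J σ) n hσ x

/-! ### Torsion-freeness, separatedness, finiteness -/

theorem eq_zero_of_p_smul_eq_zero (x : Tp p J) (h : (p : ℤ_[p]) • x = 0) : x = 0 := by
  ext k
  rw [← smul_apply_succ x k, ← coe_natCast_smul_apply, h]
  rfl

theorem eq_zero_of_pow_smul_eq_zero (n : ℕ) (x : Tp p J) (h : ((p : ℤ_[p]) ^ n) • x = 0) :
    x = 0 := by
  induction n with
  | zero => simpa using h
  | succ n ih =>
    apply ih
    apply eq_zero_of_p_smul_eq_zero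
    rw [smul_smul, ← pow_succ']
    exact h

instance instIsTorsionFree : Module.IsTorsionFree ℤ_[p] (Tp p J) := by
  rw [Module.isTorsionFree_iff_smul_eq_zero]
  intro a x h
  by_cases ha : a = 0
  · exact Or.inl ha
  right
  have h1 := PadicInt.unitCoeff_spec ha
  rw [h1, mul_smul] at h
  have h2 : ((p : ℤ_[p]) ^ a.valuation) • x = 0 := by
    have := congrArg (fun y => ((PadicInt.unitCoeff ha)⁻¹ : ℤ_[p]ˣ) • y) h
    simpa [Units.smul_def, smul_smul] using this
  exact eq_zero_of_pow_smul_eq_zero _ x h2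

instance instIsHausdorff : IsHausdorff (Ideal.span {(p : ℤ_[p])}) (Tp p J) where
  haus' x hx := by
    ext k
    have := hx k
    rw [SModEq.zero, mem_pow_smul_top_iff] at this
    exact this

/-- If the image of `x ↦ x 1` is finite then the Tate module is finitely generated. -/
theorem finite_of_finite_range (h : (Set.range fun x : Tp p J => x.1 1).Finite) :
    Module.Finite ℤ_[p] (Tp p J) := by
  classical
  haveI : Fintype (Set.range fun x : Tp p J => x.1 1) := h.fintype
  let ι := Set.range fun x : Tp p J => x.1 1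
  have hch : ∀ z : ι, ∃ x : Tp p J, x.1 1 = z.1 := fun z => z.2
  choose v hv using hch
  let φ : (ι → ℤ_[p]) →ₗ[ℤ_[p]] Tp p J := Fintype.linearCombination ℤ_[p] v
  haveI : IsAdicComplete (Ideal.span {(p : ℤ_[p])}) (ι → ℤ_[p]) := by
    haveI : IsAdicComplete (Ideal.span {(p : ℤ_[p])}) ℤ_[p] := by
      rw [← PadicInt.maximalIdeal_eq_span_p]
      infer_instance
    exact IsAdicComplete.of_module_finite _ _
  have hsurj : Function.Surjective φ := by
    apply surjective_of_precomplete (p : ℤ_[p]) φ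
    intro y
    let z : ι := ⟨y.1 1, y, rfl⟩
    have h0 : (y - v z).1 1 = 0 := by
      rw [coe_sub_apply, hv z, sub_self]
    obtain ⟨y', hy'⟩ := exists_eq_pow_smul (y - v z) 1 h0
    refine ⟨Pi.single z 1, y', ?_⟩
    rw [pow_one] at hy'
    rw [← hy']
    simp [φ, Fintype.linearCombination_apply_single]
  exact Module.Finite.of_surjective φ hsurj

/-- If `J[p]` is finite then the Tate module is finitely generated. -/
theorem finite_of_finite (h : {y : J | p • y = 0}.Finite) : Module.Finite ℤ_[p] (Tp p J) := by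
  apply finite_of_finite_range
  refine h.subset ?_
  rintro _ ⟨x, rfl⟩
  have := pow_smul_apply x 1
  rwa [pow_one] at this

/-- If `J[p]` is finite then the Tate module is free. -/
theorem free_of_finite (h : {y : J | p • y = 0}.Finite) : Module.Free ℤ_[p] (Tp p J) := by
  haveI := finite_of_finite h
  infer_instance

/-! ### Dependence on the torsion only -/

/-- A homomorphism inducing bijections on `p ^ n`-torsion for every `n` induces a bijection of
Tate modules. -/
theorem map_bijective (f : J →+ J')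
    (hinj : ∀ y : J, (∃ n : ℕ, p ^ n • y = 0) → f y = 0 → y = 0)
    (hsurj : ∀ (n : ℕ) (z : J'), p ^ n • z = 0 → ∃ y : J, p ^ n • y = 0 ∧ f y = z) :
    Function.Bijective (map f : Tp p J →ₗ[ℤ_[p]] Tp p J') := by
  constructor
  · rw [← LinearMap.ker_eq_bot, LinearMap.ker_eq_bot']
    intro x hx
    ext k
    apply hinj _ (isTorsion_apply x k)
    have := congrArg (fun z : Tp p J' => z.1 k) hx
    simpa using this
  · intro z
    have hch : ∀ k, ∃ y : J, p ^ k • y = 0 ∧ f y = z.1 k := fun k =>
      hsurj k _ (pow_smul_apply z k)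
    choose y hy1 hy2 using hch
    refine ⟨⟨y, ?_, fun k => ?_⟩, ?_⟩
    · have := hy1 0
      simpa using this
    · rw [← sub_eq_zero]
      apply hinj
      · refine ⟨k, ?_⟩
        rw [smul_sub, hy1 k, sub_zero, smul_smul, ← pow_succ, hy1]
      · rw [map_sub, map_nsmul, hy2, hy2, smul_apply_succ, sub_self]
    · ext k
      exact hy2 k

end Tp

end Fermat.Agent.S30.Padic.TateModule

end
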