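import Mathlib

/-!
# PROJECT J, slice J-5: the structure map `ℤ_[p] → R` of an adically complete ring

`R` a commutative ring which is `I`-adically complete with `(p : R) ∈ I` (for instance a complete
local ring of residue characteristic `p` with `I` its maximal ideal).  Then there is a ring
homomorphism `zpHom : ℤ_[p] →+* R`.  Being a ring homomorphism it sends `(p : ℤ_[p])` to `(p : R)`.

* `toQuot p I hp n : ℤ_[p] →+* R ⧸ I ^ n`, compatible in `n` (`factorPow_comp_toQuot`).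
* `zpHom p I hp : ℤ_[p] →+* R`, `zpAlgebra p I hp`, `mk_zpHom`, `zpHom_p_pow_mem`.
-/

set_option autoImplicit false

namespace Fermat.Agent.S30.Padic.ZpAlgebra

variable (p : ℕ) [hpp : Fact p.Prime] {R : Type*} [CommRing R] (I : Ideal R)
  (hp : (p : R) ∈ I)

omit hpp in
include hp in
theorem exists_charP_dvd (n : ℕ) : ∃ c : ℕ, c ∣ p ^ n ∧ CharP (R ⧸ I ^ n) c := by
  obtain ⟨c, hc⟩ := CharP.exists (R ⧸ I ^ n)
  refine ⟨c, ?_, hc⟩
  rw [← CharP.cast_eq_zero_iff (R ⧸ I ^ n) c, Nat.cast_pow,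
    ← map_natCast (Ideal.Quotient.mk (I ^ n)), ← map_pow, Ideal.Quotient.eq_zero_iff_mem]
  exact Ideal.pow_mem_pow hp n

/-- The ring homomorphism `ZMod (p ^ n) →+* R ⧸ I ^ n`. -/
noncomputable def zmodHom (n : ℕ) : ZMod (p ^ n) →+* R ⧸ I ^ n :=
  letI := (exists_charP_dvd p I hp n).choose_spec.2
  ZMod.castHom (exists_charP_dvd p I hp n).choose_spec.1 (R ⧸ I ^ n)

/-- The ring homomorphism `ℤ_[p] →+* R ⧸ I ^ n`. -/
noncomputable def toQuot (n : ℕ) : ℤ_[p] →+* R ⧸ I ^ n :=
  (zmodHom p I hp n).comp (PadicInt.toZModPow n)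

theorem factorPow_comp_toQuot {m n : ℕ} (hle : m ≤ n) :
    (Ideal.Quotient.factorPow I hle).comp (toQuot p I hp n) = toQuot p I hp m := by
  unfold toQuot
  rw [← PadicInt.zmod_cast_comp_toZModPow m n hle, ← RingHom.comp_assoc, ← RingHom.comp_assoc]
  congr 1
  exact RingHom.ext_zmod _ _

variable [IsAdicComplete I R]

/-- The structure map `ℤ_[p] →+* R` of an `I`-adically complete ring with `p ∈ I`. -/
noncomputable def zpHom : ℤ_[p] →+* R :=
  IsAdicComplete.liftRingHom I (toQuot p I hp) (fun hle => factorPow_comp_toQuot p I hp hle)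

/-- The `ℤ_[p]`-algebra structure of an `I`-adically complete ring with `p ∈ I`
(to be used with `letI`). -/
@[reducible] noncomputable def zpAlgebra : Algebra ℤ_[p] R := (zpHom p I hp).toAlgebra

theorem mk_zpHom (n : ℕ) (x : ℤ_[p]) :
    Ideal.Quotient.mk (I ^ n) (zpHom p I hp x) = toQuot p I hp n x :=
  IsAdicComplete.mk_liftRingHom I _ _ n x

theorem zpHom_natCast (n : ℕ) : zpHom p I hp (n : ℤ_[p]) = (n : R) := map_natCast _ n

theorem zpHom_p_pow_mem (n : ℕ) (x : ℤ_[p]) : zpHom p I hp ((p : ℤ_[p]) ^ n * x) ∈ I ^ n := by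
  rw [map_mul, map_pow, map_natCast]
  exact Ideal.mul_mem_right _ _ (Ideal.pow_mem_pow hp n)

end Fermat.Agent.S30.Padic.ZpAlgebra
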