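import Fermat.Agent.S30.Padic.EigenLattice
import Fermat.Agent.S30.Padic.TateModule
import Fermat.Agent.S30.Padic.ZpAlgebra

/-!
# PROJECT J, slice J-5: from an abelian group with Galois action to a `GaloisRepAdic`

`J` an abelian group with an action of `G_ℚ` by automorphisms (`J = JZero N`), `R` a local principal
ideal domain which is a `ℤ_[p]`-algebra with `p ∈ 𝔪` (`R = 𝒪''`), `t i` additive endomorphisms of
`J` commuting with the Galois action (the Hecke operators), `c i : R` eigenvalues.

* `opVHom p R J : AddMonoid.End J →+* Module.End R (R ⊗[ℤ_[p]] Tp p J)`, `rhoV p R J`.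
* `opVHom_eq_zero`, `commute_rhoV_opVHom`, `isAdicContinuous_rhoV`, `rhoV_quadratic`,
  `rhoV_eq_one`.
* `exists_galoisRep` : if `J[p]` is finite, the stabilisers of the points of `J[pⁿ]` are open and
  the eigen-lattice of `R ⊗ Tp p J` has rank two, there is a `GaloisRepAdic R` on which every
  Galois element `σ` satisfying `σ² - t_i σ + b = 0` on `J[p^∞]` satisfies `ρ(σ)² - c_i ρ(σ) + b = 0`
  and every `σ` acting trivially on `J[p^∞]` acts trivially.
-/

set_option autoImplicit false
set_option linter.unusedSectionVars false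

noncomputable section

namespace Fermat.Agent.S30.Padic.Assembly

open IsLocalRing TensorProduct
open Fermat.Agent.S30.Padic.TateModule Fermat.Agent.S30.Padic.EigenLattice

local notation "Γℚ" => (AlgebraicClosure ℚ ≃ₐ[ℚ] AlgebraicClosure ℚ)

variable (p : ℕ) [hp : Fact p.Prime]
variable (R : Type*) [CommRing R] [Algebra ℤ_[p] R]
variable (J : Type*) [AddCommGroup J]

/-- The operator on `R ⊗ Tp p J` induced by an additive endomorphism of `J`. -/
def opVHom : AddMonoid.End J →+* Module.End R (R ⊗[ℤ_[p]] Tp p J) :=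
  (Module.End.baseChangeHom ℤ_[p] R (Tp p J)).toRingHom.comp (Tp.mapEnd (p := p) (J := J))

theorem opVHom_apply (f : AddMonoid.End J) :
    opVHom p R J f = (Tp.mapEnd (p := p) f).baseChange R := rfl

theorem opVHom_tmul (f : AddMonoid.End J) (b : R) (x : Tp p J) :
    opVHom p R J f (b ⊗ₜ x) = b ⊗ₜ Tp.mapEnd f x := rfl

variable {J} in
/-- An endomorphism killing the `p`-power torsion induces zero. -/
theorem opVHom_eq_zero (f : AddMonoid.End J)
    (hf : ∀ y : J, (∃ n : ℕ, p ^ n • y = 0) → f y = 0) : opVHom p R J f = 0 := by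
  have h : Tp.mapEnd (p := p) f = 0 := Tp.map_eq_zero f hf
  rw [opVHom_apply, h, LinearMap.baseChange_zero]

theorem opVHom_zsmul_one (b : ℤ) :
    opVHom p R J (b • (1 : AddMonoid.End J)) = (b : R) • (1 : Module.End R (R ⊗[ℤ_[p]] Tp p J)) := by
  rw [map_zsmul, map_one]
  exact (Int.cast_smul_eq_zsmul R b 1).symm

section Galois

variable {G : Type*} [Group G] [DistribMulAction G J]

/-- The action of `G` on `R ⊗ Tp p J`. -/
def rhoV : G →* Module.End R (R ⊗[ℤ_[p]] Tp p J) :=
  (opVHom p R J).toMonoidHom.comp (DistribMulAction.toAddMonoidEnd G J)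

theorem rhoV_apply (σ : G) :
    rhoV p R J σ = opVHom p R J (DistribMulAction.toAddMonoidEnd G J σ) := rfl

theorem rhoV_tmul (σ : G) (b : R) (x : Tp p J) :
    rhoV p R J σ (b ⊗ₜ x) = b ⊗ₜ Tp.galoisHom G σ x := rfl

variable {J}

theorem commute_rhoV_opVHom (σ : G) (f : AddMonoid.End J) (h : ∀ y : J, f (σ • y) = σ • f y) :
    Commute (rhoV p R J σ) (opVHom p R J f) := by
  rw [rhoV_apply]
  refine Commute.map ?_ (opVHom p R J)
  change DistribMulAction.toAddMonoidEnd G J σ * f = f * DistribMulAction.toAddMonoidEnd G J σ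
  ext y
  exact (h y).symm

/-- Elements acting trivially on the `p`-power torsion act trivially on `R ⊗ Tp p J`. -/
theorem rhoV_eq_one (σ : G) (h : ∀ y : J, (∃ n : ℕ, p ^ n • y = 0) → σ • y = y) :
    rhoV p R J σ = 1 := by
  have h1 : opVHom p R J (DistribMulAction.toAddMonoidEnd G J σ - 1) = 0 := by
    apply opVHom_eq_zero
    intro y hy
    change σ • y - y = 0
    rw [h y hy, sub_self]
  rw [map_sub, map_one, sub_eq_zero] at h1
  exact h1

/-- A quadratic relation on the `p`-power torsion of `J` holds on `R ⊗ Tp p J`. -/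
theorem rhoV_quadratic (σ : G) (f : AddMonoid.End J) (b : ℤ)
    (h : ∀ y : J, (∃ n : ℕ, p ^ n • y = 0) → σ • σ • y - f (σ • y) + b • y = 0)
    (v : R ⊗[ℤ_[p]] Tp p J) :
    rhoV p R J σ (rhoV p R J σ v) - opVHom p R J f (rhoV p R J σ v) + (b : R) • v = 0 := by
  have h1 : opVHom p R J (DistribMulAction.toAddMonoidEnd G J σ *
      DistribMulAction.toAddMonoidEnd G J σ - f * DistribMulAction.toAddMonoidEnd G J σ
      + b • (1 : AddMonoid.End J)) = 0 := by
    apply opVHom_eq_zero
    intro y hy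
    exact h y hy
  rw [map_add, map_sub, map_mul, map_mul, opVHom_zsmul_one] at h1
  have h2 := LinearMap.congr_fun h1 v
  rw [LinearMap.add_apply, LinearMap.sub_apply, Module.End.mul_apply, Module.End.mul_apply,
    LinearMap.smul_apply, Module.End.one_apply, LinearMap.zero_apply] at h2
  exact h2

end Galois

section Continuity

variable {R : Type} [CommRing R] [Algebra ℤ_[p] R] [IsLocalRing R]
variable {J : Type} [AddCommGroup J] [DistribMulAction Γℚ J]

/-- Open stabilisers on `J[pⁿ]` give adic continuity on `R ⊗ Tp p J`. -/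
theorem isAdicContinuous_rhoV (hpR : (p : R) ∈ maximalIdeal R)
    (hC : ∀ n : ℕ, ∃ L : IntermediateField ℚ (AlgebraicClosure ℚ), FiniteDimensional ℚ L ∧
      ∀ σ : Γℚ, (∀ x ∈ L, σ x = x) → ∀ y : J, p ^ n • y = 0 → σ • y = y) :
    GaloisActionIsAdicContinuous R (rhoV p R J (G := Γℚ)) := by
  intro n
  obtain ⟨L, hL, h⟩ := hC n
  refine ⟨L, hL, fun σ hσ v => ?_⟩
  induction v using TensorProduct.induction_on with
  | zero =>
    rw [map_zero, sub_zero]
    exact Submodule.zero_mem _
  | tmul b x =>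
    obtain ⟨y, hy⟩ := Tp.exists_galoisHom_sub_eq_pow_smul (p := p) σ n (h σ hσ) x
    rw [rhoV_tmul, ← TensorProduct.tmul_sub, hy, TensorProduct.tmul_smul,
      ← algebraMap_smul R ((p : ℤ_[p]) ^ n) (b ⊗ₜ[ℤ_[p]] y), map_pow, map_natCast]
    exact Submodule.smul_mem_smul (Ideal.pow_mem_pow hpR n) Submodule.mem_top
  | add v w hv hw =>
    rw [map_add, add_sub_add_comm]
    exact Submodule.add_mem _ hv hw

end Continuity

section Main

variable {R : Type} [CommRing R] [Algebra ℤ_[p] R] [IsDomain R] [IsPrincipalIdealRing R]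
  [IsLocalRing R]
variable {J : Type} [AddCommGroup J] [DistribMulAction Γℚ J]

/-- **The abstract core of J-5.**  `J` an abelian group with `G_ℚ`-action, `J[p]` finite, open
stabilisers on `J[pⁿ]`, operators `t i` commuting with the Galois action, eigenvalues `c i` such
that the eigen-lattice of `R ⊗ Tp p J` has rank two.  Then there is a `GaloisRepAdic R` inheriting
the quadratic relations and the triviality of Galois elements on `J[p^∞]`. -/
theorem exists_galoisRep (hpR : (p : R) ∈ maximalIdeal R)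
    (hfin : {y : J | p • y = 0}.Finite)
    (hC : ∀ n : ℕ, ∃ L : IntermediateField ℚ (AlgebraicClosure ℚ), FiniteDimensional ℚ L ∧
      ∀ σ : Γℚ, (∀ x ∈ L, σ x = x) → ∀ y : J, p ^ n • y = 0 → σ • y = y)
    {ι : Type*} (t : ι → AddMonoid.End J) (ht : ∀ (σ : Γℚ) (i : ι) (y : J), t i (σ • y) = σ • t i y)
    (c : ι → R)
    (h2 : Module.finrank R (eigenLattice (fun i => opVHom p R J (t i)) c) = 2) :
    ∃ ρ : GaloisRepAdic R,
      (∀ (σ : Γℚ) (i : ι) (b : ℤ),
        (∀ y : J, (∃ n : ℕ, p ^ n • y = 0) → σ • σ • y - t i (σ • y) + b • y = 0) →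
          ρ.ρ σ * ρ.ρ σ - c i • ρ.ρ σ + (b : R) • (1 : Module.End R ρ.V) = 0) ∧
      (∀ σ : Γℚ, (∀ y : J, (∃ n : ℕ, p ^ n • y = 0) → σ • y = y) → ρ.ρ σ = 1) := by
  have : Module.Finite ℤ_[p] (Tp p J) := Tp.finite_of_finite hfin
  have : Module.Free ℤ_[p] (Tp p J) := Tp.free_of_finite hfin
  have hcomm : ∀ (σ : Γℚ) (i : ι), Commute (rhoV p R J σ) (opVHom p R J (t i)) :=
    fun σ i => commute_rhoV_opVHom p R σ (t i) (ht σ i)
  have hcont := isAdicContinuous_rhoV p (R := R) (J := J) hpR hC
  refine ⟨galoisRep (fun i => opVHom p R J (t i)) c (rhoV p R J) hcomm hcont h2, ?_, ?_⟩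
  · intro σ i b h
    exact galoisRep_quadratic (t := fun i => opVHom p R J (t i)) i (b : R)
      (rhoV_quadratic p R σ (t i) b h)
  · intro σ h
    exact galoisRep_eq_one (rhoV_eq_one p R σ h)

end Main

end Fermat.Agent.S30.Padic.Assembly

end
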