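import Mathlib
import Fermat.Agent.S30.Padic.TateModule

/-!
# PROJECT J, slice J-5-H (helper21): the Tate module of a group of homomorphisms

`Tp p J` is the abstract Tate module of `Padic/TateModule.lean` (helper14).

* `Tp.ev k : Tp p B →+ B`, the `k`-th component;
* **`homEquiv : Tp p (H →+ B) ≃ₗ[ℤ_[p]] (H →+ Tp p B)`** (currying), `homEquiv_apply_apply`,
  `ev_comp_homEquiv`;
* `homS S B : AddSubgroup (H →+ B)` (homomorphisms vanishing on `S ⊆ H`), `homSMod R S M` the same
  as a submodule, **`homSEquiv : Tp p ↥(homS S B) ≃ₗ[ℤ_[p]] ↥(homSMod ℤ_[p] S (Tp p B))`**;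
* **`ofGenerator ζ hgen hne : ℤ_[p] ≃ₗ[ℤ_[p]] Tp p B`** : a Tate module whose `p`-torsion is cyclic,
  generated by the first component of `ζ ≠ 0`, is free of rank one on `ζ`;
* `zetaUnits p : Tp p (Additive ℂˣ)` (`k ↦ exp (2πi / p ^ k)`), **`tateUnits p : ℤ_[p] ≃ₗ[ℤ_[p]]
  Tp p (Additive ℂˣ)`**;
* `postcomp e : (H →+ B) ≃ₗ (H →+ B')` for a linear equivalence `e` of the coefficients,
  `homSModCongr`;
* **`tateHomS p S : Tp p ↥(homS S (Additive ℂˣ)) ≃ₗ[ℤ_[p]] ↥(homSMod S ℤ_[p] ℤ_[p])`**,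
  `tateHomS_spec'` (`x_k(h) = ζ_k ^ (ψ h mod p ^ k)`), and the naturality statements
  `homEquiv_map`, `homSEquiv_map`, `tateHomS_map`, `tateHomS_map'` for operators which are natural
  in the coefficient group; `finrank_tateHomS`;
* `tpCongr e : Tp p J ≃ₗ[ℤ_[p]] Tp p J'` for `e : J ≃+ J'`;
* MULTIPLICATIVE FRONT-END, `G` a group, `S : Set G`: `charS S : Subgroup (G →* ℂˣ)` (characters
  trivial on `S`), `addSet S : Set (Additive G)`, `charAddEquiv`,
  **`tateChar p S : Tp p (Additive ↥(charS S)) ≃ₗ[ℤ_[p]] ↥(homSMod (addSet S) ℤ_[p] ℤ_[p])`**,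
  `tateChar_spec`, `tateChar_map`;
* `map_eq_zero_of_isOfFinOrder`, `homSMod_union_finOrder`, **`tateCharFin p S`** : characters
  trivial on `S` and on ALL elements of finite order (`PAR` + `ELLFREE`) have Tate module
  `homSMod (addSet S) ℤ_[p] ℤ_[p]` (torsion-free coefficients kill finite order for free).
-/

set_option autoImplicit false
set_option linter.unusedSectionVars false
set_option linter.style.haveILetI false

noncomputable section

namespace Fermat.Agent.S30.Padic.TateHom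

open Fermat.Agent.S30.Padic.TateModule

variable {p : ℕ} [hp : Fact p.Prime]

/-! ### components -/

section Ev

variable {B : Type*} [AddCommGroup B]

/-- the `k`-th component of a Tate vector -/
def ev (k : ℕ) : Tp p B →+ B where
  toFun x := x.1 k
  map_zero' := rfl
  map_add' _ _ := rfl

@[simp] theorem ev_apply (k : ℕ) (x : Tp p B) : ev k x = x.1 k := rfl

theorem ev_zero (x : Tp p B) : ev 0 x = 0 := Tp.apply_zero x

theorem nsmul_ev_succ (k : ℕ) (x : Tp p B) : p • ev (k + 1) x = ev k x := Tp.smul_apply_succ x k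

theorem ev_smul (k : ℕ) (a : ℤ_[p]) (x : Tp p B) : ev k (a • x) = a.appr k • ev k x := rfl

theorem ext_ev {x y : Tp p B} (h : ∀ k, ev k x = ev k y) : x = y := Tp.ext h

end Ev

/-! ### currying -/

section Curry

variable (p) (H : Type*) [AddMonoid H] (B : Type*) [AddCommGroup B]

/-- **Currying**: a compatible system of homomorphisms `H →+ B` is a homomorphism into the Tate
module of `B`. -/
def homEquiv : Tp p (H →+ B) ≃ₗ[ℤ_[p]] (H →+ Tp p B) where
  toFun x :=
    { toFun := fun h => ⟨fun k => x.1 k h, by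
        refine ⟨?_, fun k => ?_⟩
        · show x.1 0 h = 0
          rw [Tp.apply_zero x]
          rfl
        · show p • x.1 (k + 1) h = x.1 k h
          have h1 := DFunLike.congr_fun (Tp.smul_apply_succ x k) h
          rwa [AddMonoidHom.nsmul_apply] at h1⟩
      map_zero' := Tp.ext fun k => map_zero (x.1 k)
      map_add' := fun h h' => Tp.ext fun k => map_add (x.1 k) h h' }
  map_add' x y := by
    ext h k
    rfl
  map_smul' a x := by
    ext h k
    rfl
  invFun φ := ⟨fun k => (ev k).comp φ, by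
    refine ⟨?_, fun k => ?_⟩
    · ext h
      exact Tp.apply_zero (φ h)
    · ext h
      exact Tp.smul_apply_succ (φ h) k⟩
  left_inv x := by
    ext k h
    rfl
  right_inv φ := by
    ext h k
    rfl

variable {p H B}

@[simp] theorem homEquiv_apply_apply (x : Tp p (H →+ B)) (h : H) (k : ℕ) :
    (homEquiv p H B x h).1 k = x.1 k h := rfl

theorem ev_comp_homEquiv (x : Tp p (H →+ B)) (k : ℕ) :
    (ev k).comp (homEquiv p H B x) = x.1 k := rfl

@[simp] theorem homEquiv_symm_apply (φ : H →+ Tp p B) (k : ℕ) :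
    ((homEquiv p H B).symm φ).1 k = (ev k).comp φ := rfl

/-- **naturality of currying**: if `tB` on `H →+ B` and `tT` on `H →+ Tp p B` are two instances of
an operator which is natural in the coefficient group (compatibility with the components
`ev k : Tp p B →+ B`), then currying intertwines `Tp.map tB` and `tT`. -/
theorem homEquiv_map (tB : (H →+ B) →+ (H →+ B)) (tT : (H →+ Tp p B) →+ (H →+ Tp p B))
    (hnat : ∀ (k : ℕ) (φ : H →+ Tp p B), (ev k).comp (tT φ) = tB ((ev k).comp φ))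
    (x : Tp p (H →+ B)) : homEquiv p H B (Tp.map tB x) = tT (homEquiv p H B x) := by
  ext h k
  have h1 := DFunLike.congr_fun (hnat k (homEquiv p H B x)) h
  rw [ev_comp_homEquiv] at h1
  exact h1.symm

end Curry

/-! ### homomorphisms vanishing on a set -/

section HomS

variable {H : Type*} [AddMonoid H] (S : Set H)

/-- the homomorphisms `H →+ B` vanishing on `S` -/
def homS (B : Type*) [AddCommGroup B] : AddSubgroup (H →+ B) where
  carrier := {φ | ∀ s ∈ S, φ s = 0}
  zero_mem' _ _ := rfl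
  add_mem' := fun {φ ψ} hφ hψ s hs => by rw [AddMonoidHom.add_apply, hφ s hs, hψ s hs, add_zero]
  neg_mem' := fun {φ} hφ s hs => by rw [AddMonoidHom.neg_apply, hφ s hs, neg_zero]

theorem mem_homS {B : Type*} [AddCommGroup B] {φ : H →+ B} :
    φ ∈ homS S B ↔ ∀ s ∈ S, φ s = 0 := Iff.rfl

/-- the homomorphisms `H →+ M` vanishing on `S`, as a submodule -/
def homSMod (R : Type*) [Semiring R] (M : Type*) [AddCommGroup M] [Module R M] :
    Submodule R (H →+ M) where
  carrier := {φ | ∀ s ∈ S, φ s = 0}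
  zero_mem' _ _ := rfl
  add_mem' := fun {φ ψ} hφ hψ s hs => by rw [AddMonoidHom.add_apply, hφ s hs, hψ s hs, add_zero]
  smul_mem' := fun a φ hφ s hs => by rw [AddMonoidHom.smul_apply, hφ s hs, smul_zero]

theorem mem_homSMod {R : Type*} [Semiring R] {M : Type*} [AddCommGroup M] [Module R M]
    {φ : H →+ M} : φ ∈ homSMod S R M ↔ ∀ s ∈ S, φ s = 0 := Iff.rfl

variable (p) (B : Type*) [AddCommGroup B]

/-- **Currying for homomorphisms vanishing on `S`.** -/
def homSEquiv : Tp p ↥(homS S B) ≃ₗ[ℤ_[p]] ↥(homSMod S ℤ_[p] (Tp p B)) where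
  toFun x := ⟨homEquiv p H B (Tp.map (homS S B).subtype x), fun s hs =>
    Tp.ext fun k => (x.1 k).2 s hs⟩
  map_add' x y := by
    apply Subtype.ext
    simp only [map_add]
    rfl
  map_smul' a x := by
    apply Subtype.ext
    simp only [map_smul]
    rfl
  invFun φ := ⟨fun k => ⟨(ev k).comp φ.1, fun s hs => by
      show ev k (φ.1 s) = 0
      rw [φ.2 s hs, map_zero]⟩, by
    refine ⟨?_, fun k => ?_⟩
    · apply Subtype.ext
      ext h
      exact Tp.apply_zero (φ.1 h)
    · apply Subtype.ext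
      ext h
      exact Tp.smul_apply_succ (φ.1 h) k⟩
  left_inv x := by
    ext k h
    rfl
  right_inv φ := by
    apply Subtype.ext
    ext h k
    rfl

variable {p B}

@[simp] theorem homSEquiv_apply_apply (x : Tp p ↥(homS S B)) (h : H) (k : ℕ) :
    ((homSEquiv p S B x : H →+ Tp p B) h).1 k = (x.1 k : H →+ B) h := rfl

theorem coe_homSEquiv (x : Tp p ↥(homS S B)) :
    (homSEquiv p S B x : H →+ Tp p B) = homEquiv p H B (Tp.map (homS S B).subtype x) := rfl

/-- **naturality**: for `tB` preserving `homS S B`, `tT` preserving `homSMod S ℤ_[p] (Tp p B)`,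
compatible with the components. -/
theorem homSEquiv_map (tB : ↥(homS S B) →+ ↥(homS S B))
    (tT : ↥(homSMod S ℤ_[p] (Tp p B)) →+ ↥(homSMod S ℤ_[p] (Tp p B)))
    (hnat : ∀ (k : ℕ) (φ : ↥(homSMod S ℤ_[p] (Tp p B))),
      (ev k).comp (tT φ : H →+ Tp p B) =
        (tB ⟨(ev k).comp (φ : H →+ Tp p B), fun s hs => by
          show ev k ((φ : H →+ Tp p B) s) = 0
          rw [φ.2 s hs, map_zero]⟩ : H →+ B))
    (x : Tp p ↥(homS S B)) : homSEquiv p S B (Tp.map tB x) = tT (homSEquiv p S B x) := by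
  apply Subtype.ext
  ext h k
  have h1 := DFunLike.congr_fun (hnat k (homSEquiv p S B x)) h
  exact h1.symm

end HomS

/-! ### rank one -/

section RankOne

variable {B : Type*} [AddCommGroup B]

theorem isPrecomplete_padicInt : IsPrecomplete (Ideal.span {(p : ℤ_[p])}) ℤ_[p] := by
  rw [← PadicInt.maximalIdeal_eq_span_p]
  infer_instance

/-- **A Tate module with cyclic `p`-torsion is free of rank one**: if the first component of
`ζ` is nonzero and generates the `p`-torsion of `B`, then `a ↦ a • ζ` is an isomorphism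
`ℤ_[p] ≃ Tp p B`. -/
theorem toSpanSingleton_bijective (ζ : Tp p B) (hgen : ∀ y : B, p • y = 0 → ∃ n : ℕ, y = n • ζ.1 1)
    (hne : ζ.1 1 ≠ 0) : Function.Bijective (LinearMap.toSpanSingleton ℤ_[p] (Tp p B) ζ) := by
  have hζ : ζ ≠ 0 := fun h => hne (by rw [h]; rfl)
  constructor
  · rw [← LinearMap.ker_eq_bot, LinearMap.ker_eq_bot']
    intro a ha
    rw [LinearMap.toSpanSingleton_apply] at ha
    exact (smul_eq_zero.mp ha).resolve_right hζ
  · haveI := isPrecomplete_padicInt (p := p)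
    refine surjective_of_precomplete (p : ℤ_[p]) _ fun y => ?_
    have hy1 : p • y.1 1 = 0 := by
      have := Tp.smul_apply_succ y 0
      rwa [zero_add, Tp.apply_zero y] at this
    obtain ⟨n, hn⟩ := hgen _ hy1
    have h0 : (y - (n : ℤ_[p]) • ζ).1 1 = 0 := by
      rw [Tp.coe_sub_apply, Tp.coe_natCast_smul_apply, hn, sub_self]
    obtain ⟨y', hy'⟩ := Tp.exists_eq_pow_smul _ 1 h0
    refine ⟨(n : ℤ_[p]), y', ?_⟩
    rw [LinearMap.toSpanSingleton_apply, ← pow_one (p : ℤ_[p]), ← hy']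
    abel

/-- the isomorphism `ℤ_[p] ≃ Tp p B`, `a ↦ a • ζ` -/
def ofGenerator (ζ : Tp p B) (hgen : ∀ y : B, p • y = 0 → ∃ n : ℕ, y = n • ζ.1 1)
    (hne : ζ.1 1 ≠ 0) : ℤ_[p] ≃ₗ[ℤ_[p]] Tp p B :=
  LinearEquiv.ofBijective (LinearMap.toSpanSingleton ℤ_[p] (Tp p B) ζ)
    (toSpanSingleton_bijective ζ hgen hne)

@[simp] theorem ofGenerator_apply (ζ : Tp p B)
    (hgen : ∀ y : B, p • y = 0 → ∃ n : ℕ, y = n • ζ.1 1) (hne : ζ.1 1 ≠ 0) (a : ℤ_[p]) :
    ofGenerator ζ hgen hne a = a • ζ := rfl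

theorem ofGenerator_one (ζ : Tp p B)
    (hgen : ∀ y : B, p • y = 0 → ∃ n : ℕ, y = n • ζ.1 1) (hne : ζ.1 1 ≠ 0) :
    ofGenerator ζ hgen hne 1 = ζ := by
  rw [ofGenerator_apply, one_smul]

theorem ev_ofGenerator (ζ : Tp p B)
    (hgen : ∀ y : B, p • y = 0 → ∃ n : ℕ, y = n • ζ.1 1) (hne : ζ.1 1 ≠ 0) (a : ℤ_[p]) (k : ℕ) :
    ev k (ofGenerator ζ hgen hne a) = a.appr k • ζ.1 k := rfl

end RankOne

/-! ### the Tate module of `ℂˣ` -/

section Units

variable (p)

/-- `exp (2πi / p ^ k)` as a unit of `ℂ` -/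
def zetaC (k : ℕ) : ℂˣ :=
  Units.mk0 (Complex.exp (2 * Real.pi * Complex.I / ((p ^ k : ℕ) : ℂ))) (Complex.exp_ne_zero _)

theorem coe_zetaC (k : ℕ) :
    ((zetaC p k : ℂˣ) : ℂ) = Complex.exp (2 * Real.pi * Complex.I / ((p ^ k : ℕ) : ℂ)) := rfl

theorem isPrimitiveRoot_zetaC (k : ℕ) : IsPrimitiveRoot ((zetaC p k : ℂˣ) : ℂ) (p ^ k) :=
  Complex.isPrimitiveRoot_exp (p ^ k) (pow_ne_zero k hp.out.ne_zero)

theorem zetaC_zero : zetaC p 0 = 1 := by
  apply Units.ext
  have h := isPrimitiveRoot_zetaC p 0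
  rw [pow_zero] at h
  exact IsPrimitiveRoot.one_right_iff.mp h

theorem zetaC_succ_pow (k : ℕ) : zetaC p (k + 1) ^ p = zetaC p k := by
  apply Units.ext
  rw [Units.val_pow_eq_pow_val, coe_zetaC, coe_zetaC, ← Complex.exp_nat_mul]
  congr 1
  have hp0 : (p : ℂ) ≠ 0 := Nat.cast_ne_zero.mpr hp.out.ne_zero
  have hpk : ((p ^ k : ℕ) : ℂ) ≠ 0 := Nat.cast_ne_zero.mpr (pow_ne_zero k hp.out.ne_zero)
  rw [pow_succ, Nat.cast_mul]
  field_simp

/-- the compatible system `k ↦ exp (2πi / p ^ k)` -/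
def zetaUnits : Tp p (Additive ℂˣ) :=
  ⟨fun k => Additive.ofMul (zetaC p k), by
    refine ⟨?_, fun k => ?_⟩
    · show Additive.ofMul (zetaC p 0) = 0
      rw [zetaC_zero]
      rfl
    · show p • Additive.ofMul (zetaC p (k + 1)) = Additive.ofMul (zetaC p k)
      rw [← ofMul_pow, zetaC_succ_pow]⟩

@[simp] theorem zetaUnits_apply (k : ℕ) : (zetaUnits p).1 k = Additive.ofMul (zetaC p k) := rfl

theorem zetaUnits_gen (y : Additive ℂˣ) (hy : p • y = 0) :
    ∃ n : ℕ, y = n • (zetaUnits p).1 1 := by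
  have h1 : (Additive.toMul y) ^ p = 1 := by
    have := congrArg Additive.toMul hy
    rwa [toMul_nsmul, toMul_zero] at this
  have h2 : ((Additive.toMul y : ℂˣ) : ℂ) ^ p = 1 := by
    rw [← Units.val_pow_eq_pow_val, h1, Units.val_one]
  have hprim := isPrimitiveRoot_zetaC p 1
  rw [pow_one] at hprim
  obtain ⟨i, -, hi⟩ := hprim.eq_pow_of_pow_eq_one h2
  refine ⟨i, ?_⟩
  have h3 : Additive.toMul y = zetaC p 1 ^ i := by
    apply Units.ext
    rw [Units.val_pow_eq_pow_val, hi]
  rw [zetaUnits_apply, ← ofMul_pow, ← h3]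
  rfl

theorem zetaUnits_ne : (zetaUnits p).1 1 ≠ 0 := by
  intro h
  have h1 : zetaC p 1 = 1 := by
    have := congrArg Additive.toMul h
    simpa using this
  have hprim := isPrimitiveRoot_zetaC p 1
  rw [pow_one, h1, Units.val_one] at hprim
  exact hp.out.one_lt.ne' (IsPrimitiveRoot.one_left_iff.mp hprim)

/-- **`T_p(ℂˣ)` is free of rank one**, generated by `k ↦ exp (2πi / p ^ k)`. -/
def tateUnits : ℤ_[p] ≃ₗ[ℤ_[p]] Tp p (Additive ℂˣ) :=
  ofGenerator (zetaUnits p) (zetaUnits_gen p) (zetaUnits_ne p)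

theorem tateUnits_apply (a : ℤ_[p]) : tateUnits p a = a • zetaUnits p := rfl

theorem ev_tateUnits (a : ℤ_[p]) (k : ℕ) :
    ev k (tateUnits p a) = Additive.ofMul (zetaC p k ^ a.appr k) := by
  rw [tateUnits_apply, ev_smul, ev_apply, zetaUnits_apply, ← ofMul_pow]

/-- reduction modulo `p ^ k` with values in the `p ^ k`-th roots of unity: `a ↦ ζ_k ^ a` -/
def redUnits (k : ℕ) : ℤ_[p] →+ Additive ℂˣ :=
  (ev k).comp (tateUnits p).toAddEquiv.toAddMonoidHom

theorem redUnits_apply (a : ℤ_[p]) (k : ℕ) :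
    redUnits p k a = Additive.ofMul (zetaC p k ^ a.appr k) := ev_tateUnits p a k

end Units

/-! ### change of coefficients -/

section Postcomp

variable {H : Type*} [AddMonoid H] (S : Set H) {R : Type*} [Semiring R]
  {M M' : Type*} [AddCommGroup M] [Module R M] [AddCommGroup M'] [Module R M']

/-- post-composition with a linear equivalence of the coefficients -/
def postcomp (e : M ≃ₗ[R] M') : (H →+ M) ≃ₗ[R] (H →+ M') where
  toFun φ := (e : M →+ M').comp φ
  invFun ψ := (e.symm : M' →+ M).comp ψ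
  map_add' φ ψ := by
    ext h
    exact map_add e _ _
  map_smul' a φ := by
    ext h
    exact map_smul e a (φ h)
  left_inv φ := by
    ext h
    exact e.symm_apply_apply (φ h)
  right_inv ψ := by
    ext h
    exact e.apply_symm_apply (ψ h)

@[simp] theorem postcomp_apply (e : M ≃ₗ[R] M') (φ : H →+ M) (h : H) :
    postcomp e φ h = e (φ h) := rfl

@[simp] theorem postcomp_symm_apply (e : M ≃ₗ[R] M') (ψ : H →+ M') (h : H) :
    (postcomp e).symm ψ h = e.symm (ψ h) := rfl

/-- the same on the homomorphisms vanishing on `S` -/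
def homSModCongr (e : M ≃ₗ[R] M') : ↥(homSMod S R M) ≃ₗ[R] ↥(homSMod S R M') where
  toFun φ := ⟨postcomp e φ.1, fun s hs => by
    rw [postcomp_apply, φ.2 s hs, map_zero]⟩
  invFun ψ := ⟨(postcomp e).symm ψ.1, fun s hs => by
    rw [postcomp_symm_apply, ψ.2 s hs, map_zero]⟩
  map_add' φ ψ := Subtype.ext (map_add (postcomp e) φ.1 ψ.1)
  map_smul' a φ := Subtype.ext (map_smul (postcomp e) a φ.1)
  left_inv φ := Subtype.ext ((postcomp e).symm_apply_apply φ.1)
  right_inv ψ := Subtype.ext ((postcomp e).apply_symm_apply ψ.1)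

@[simp] theorem homSModCongr_apply (e : M ≃ₗ[R] M') (φ : ↥(homSMod S R M)) (h : H) :
    (homSModCongr S e φ : H →+ M') h = e ((φ : H →+ M) h) := rfl

@[simp] theorem homSModCongr_symm_apply (e : M ≃ₗ[R] M') (ψ : ↥(homSMod S R M')) (h : H) :
    ((homSModCongr S e).symm ψ : H →+ M) h = e.symm ((ψ : H →+ M') h) := rfl

end Postcomp

/-! ### the combined statement -/

section Combined

variable (p) {H : Type*} [AddMonoid H] (S : Set H)

/-- **The Tate module of the characters of `H` killing `S` with values in `ℂˣ` is the module of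
homomorphisms `H → ℤ_[p]` killing `S`.** -/
def tateHomS : Tp p ↥(homS S (Additive ℂˣ)) ≃ₗ[ℤ_[p]] ↥(homSMod S ℤ_[p] ℤ_[p]) :=
  (homSEquiv p S (Additive ℂˣ)).trans (homSModCongr S (tateUnits p).symm)

/-- the defining property: `x_k(h) = ζ_k ^ (ψ h mod p ^ k)` for `ψ = tateHomS x`. -/
theorem tateHomS_spec (x : Tp p ↥(homS S (Additive ℂˣ))) (h : H) (k : ℕ) :
    (x.1 k : H →+ Additive ℂˣ) h = redUnits p k ((tateHomS p S x : H →+ ℤ_[p]) h) := by
  show _ = ev k (tateUnits p ((tateUnits p).symm ((homSEquiv p S (Additive ℂˣ) x : H →+ _) h)))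
  rw [LinearEquiv.apply_symm_apply]
  rfl

theorem tateHomS_spec' (x : Tp p ↥(homS S (Additive ℂˣ))) (h : H) (k : ℕ) :
    Additive.toMul ((x.1 k : H →+ Additive ℂˣ) h) =
      zetaC p k ^ ((tateHomS p S x : H →+ ℤ_[p]) h).appr k := by
  rw [tateHomS_spec, redUnits_apply]
  rfl

/-- `redUnits k ∘ ψ` kills `S` when `ψ` does -/
def redHomS (k : ℕ) (ψ : ↥(homSMod S ℤ_[p] ℤ_[p])) : ↥(homS S (Additive ℂˣ)) :=
  ⟨(redUnits p k).comp (ψ : H →+ ℤ_[p]), fun s hs => by
    show redUnits p k ((ψ : H →+ ℤ_[p]) s) = 0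
    rw [ψ.2 s hs, map_zero]⟩

theorem redHomS_tateHomS (x : Tp p ↥(homS S (Additive ℂˣ))) (k : ℕ) :
    redHomS p S k (tateHomS p S x) = x.1 k := by
  apply Subtype.ext
  exact AddMonoidHom.ext fun h => (tateHomS_spec p S x h k).symm

/-- **naturality**: if `tB` (on characters with values in `ℂˣ`) and `tZ` (on homomorphisms to
`ℤ_[p]`) are two instances of an operator natural in the coefficient group, i.e. compatible with the
reductions `redUnits k : ℤ_[p] →+ ℂˣ`, then `tateHomS` intertwines `Tp.map tB` and `tZ`. -/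
theorem tateHomS_map (tB : ↥(homS S (Additive ℂˣ)) →+ ↥(homS S (Additive ℂˣ)))
    (tZ : ↥(homSMod S ℤ_[p] ℤ_[p]) →+ ↥(homSMod S ℤ_[p] ℤ_[p]))
    (hnat : ∀ (k : ℕ) (ψ : ↥(homSMod S ℤ_[p] ℤ_[p])),
      redHomS p S k (tZ ψ) = tB (redHomS p S k ψ))
    (x : Tp p ↥(homS S (Additive ℂˣ))) :
    tateHomS p S (Tp.map tB x) = tZ (tateHomS p S x) := by
  apply (tateHomS p S).symm.injective
  rw [LinearEquiv.symm_apply_apply]
  apply Tp.ext
  intro k
  rw [Tp.coe_map_apply, ← redHomS_tateHomS p S x k, ← hnat,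
    ← redHomS_tateHomS p S ((tateHomS p S).symm (tZ (tateHomS p S x))) k,
    LinearEquiv.apply_symm_apply]

/-- restriction of an operator on `H →+ B` preserving `homS S B` -/
def restrictHomS {B : Type*} [AddCommGroup B] (t : (H →+ B) →+ (H →+ B))
    (ht : ∀ φ ∈ homS S B, t φ ∈ homS S B) : ↥(homS S B) →+ ↥(homS S B) :=
  (t.comp (homS S B).subtype).codRestrict (homS S B) fun φ => ht φ.1 φ.2

@[simp] theorem coe_restrictHomS {B : Type*} [AddCommGroup B] (t : (H →+ B) →+ (H →+ B))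
    (ht : ∀ φ ∈ homS S B, t φ ∈ homS S B) (φ : ↥(homS S B)) :
    (restrictHomS S t ht φ : H →+ B) = t φ := rfl

/-- restriction of an operator on `H →+ M` preserving `homSMod S R M` -/
def restrictHomSMod {R : Type*} [Semiring R] {M : Type*} [AddCommGroup M] [Module R M]
    (t : (H →+ M) →+ (H →+ M)) (ht : ∀ φ ∈ homSMod S R M, t φ ∈ homSMod S R M) :
    ↥(homSMod S R M) →+ ↥(homSMod S R M) where
  toFun φ := ⟨t φ.1, ht φ.1 φ.2⟩
  map_zero' := Subtype.ext (map_zero t)
  map_add' φ ψ := Subtype.ext (map_add t φ.1 ψ.1)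

@[simp] theorem coe_restrictHomSMod {R : Type*} [Semiring R] {M : Type*} [AddCommGroup M]
    [Module R M] (t : (H →+ M) →+ (H →+ M)) (ht : ∀ φ ∈ homSMod S R M, t φ ∈ homSMod S R M)
    (φ : ↥(homSMod S R M)) : (restrictHomSMod S t ht φ : H →+ M) = t φ := rfl

/-- **naturality, unrestricted form**: `tB`, `tZ` operators on ALL homomorphisms with values in
`ℂˣ`, `ℤ_[p]`, preserving those vanishing on `S`, and compatible with the reductions
`redUnits k : ℤ_[p] →+ ℂˣ` (e.g. two instances of an operator natural in the coefficient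
group). -/
theorem tateHomS_map' (tB : (H →+ Additive ℂˣ) →+ (H →+ Additive ℂˣ))
    (tZ : (H →+ ℤ_[p]) →+ (H →+ ℤ_[p]))
    (hB : ∀ φ ∈ homS S (Additive ℂˣ), tB φ ∈ homS S (Additive ℂˣ))
    (hZ : ∀ ψ ∈ homSMod S ℤ_[p] ℤ_[p], tZ ψ ∈ homSMod S ℤ_[p] ℤ_[p])
    (hnat : ∀ (k : ℕ) (ψ : H →+ ℤ_[p]),
      (redUnits p k).comp (tZ ψ) = tB ((redUnits p k).comp ψ))
    (x : Tp p ↥(homS S (Additive ℂˣ))) :
    tateHomS p S (Tp.map (restrictHomS S tB hB) x) =
      restrictHomSMod S tZ hZ (tateHomS p S x) :=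
  tateHomS_map p S (restrictHomS S tB hB) (restrictHomSMod S tZ hZ)
    (fun k ψ => Subtype.ext (hnat k ψ.1)) x

theorem finrank_tateHomS :
    Module.finrank ℤ_[p] (Tp p ↥(homS S (Additive ℂˣ))) =
      Module.finrank ℤ_[p] ↥(homSMod S ℤ_[p] ℤ_[p]) :=
  (tateHomS p S).finrank_eq

end Combined

/-! ### Tate modules of isomorphic groups -/

section Congr

variable {J J' : Type*} [AddCommGroup J] [AddCommGroup J']

/-- an additive isomorphism induces an isomorphism of Tate modules -/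
def tpCongr (e : J ≃+ J') : Tp p J ≃ₗ[ℤ_[p]] Tp p J' where
  __ := Tp.map (e : J →+ J')
  invFun := Tp.map (e.symm : J' →+ J)
  left_inv x := Tp.ext fun k => e.symm_apply_apply (x.1 k)
  right_inv y := Tp.ext fun k => e.apply_symm_apply (y.1 k)

@[simp] theorem tpCongr_apply (e : J ≃+ J') (x : Tp p J) (k : ℕ) :
    (tpCongr e x).1 k = e (x.1 k) := rfl

@[simp] theorem tpCongr_symm_apply (e : J ≃+ J') (y : Tp p J') (k : ℕ) :
    ((tpCongr e).symm y).1 k = e.symm (y.1 k) := rfl

end Congr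

/-! ### multiplicative front-end: characters `G →* ℂˣ` of a group -/

section Characters

variable {G : Type*} [Group G] (S : Set G)

/-- the characters of `G` with values in `ℂˣ` which are trivial on `S` -/
def charS : Subgroup (G →* ℂˣ) where
  carrier := {ψ | ∀ s ∈ S, ψ s = 1}
  one_mem' _ _ := rfl
  mul_mem' := fun {ψ χ} hψ hχ s hs => by rw [MonoidHom.mul_apply, hψ s hs, hχ s hs, one_mul]
  inv_mem' := fun {ψ} hψ s hs => by rw [MonoidHom.inv_apply, hψ s hs, inv_one]

theorem mem_charS {ψ : G →* ℂˣ} : ψ ∈ charS S ↔ ∀ s ∈ S, ψ s = 1 := Iff.rfl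

/-- the set `S`, read in `Additive G` -/
def addSet : Set (Additive G) := Additive.toMul ⁻¹' S

theorem mem_addSet {h : Additive G} : h ∈ addSet S ↔ Additive.toMul h ∈ S := Iff.rfl

/-- characters trivial on `S`, additively -/
def charAddEquiv : Additive ↥(charS S) ≃+ ↥(homS (addSet S) (Additive ℂˣ)) where
  toFun ψ := ⟨MonoidHom.toAdditive (Additive.toMul ψ).1, fun s hs =>
    congrArg Additive.ofMul ((Additive.toMul ψ).2 (Additive.toMul s) hs)⟩
  invFun φ := Additive.ofMul ⟨MonoidHom.toAdditive.symm φ.1, fun s hs =>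
    congrArg Additive.toMul (φ.2 (Additive.ofMul s) hs)⟩
  left_inv _ := rfl
  right_inv _ := rfl
  map_add' _ _ := rfl

@[simp] theorem charAddEquiv_apply (ψ : Additive ↥(charS S)) (h : Additive G) :
    (charAddEquiv S ψ : Additive G →+ Additive ℂˣ) h =
      Additive.ofMul (((Additive.toMul ψ : ↥(charS S)) : G →* ℂˣ) (Additive.toMul h)) := rfl

variable (p)

/-- **The Tate module of the group of characters of `G` trivial on `S` is the module of
homomorphisms `G → ℤ_[p]` (written additively) vanishing on `S`.** -/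
def tateChar : Tp p (Additive ↥(charS S)) ≃ₗ[ℤ_[p]] ↥(homSMod (addSet S) ℤ_[p] ℤ_[p]) :=
  (tpCongr (charAddEquiv S)).trans (tateHomS p (addSet S))

/-- the defining property: `ψ_k(g) = ζ_k ^ (φ g mod p ^ k)` for `φ = tateChar x`,
`ζ_k = exp (2πi / p ^ k)`. -/
theorem tateChar_spec (x : Tp p (Additive ↥(charS S))) (g : G) (k : ℕ) :
    ((Additive.toMul (x.1 k) : ↥(charS S)) : G →* ℂˣ) g =
      zetaC p k ^ ((tateChar p S x : Additive G →+ ℤ_[p]) (Additive.ofMul g)).appr k :=
  tateHomS_spec' p (addSet S) (tpCongr (charAddEquiv S) x) (Additive.ofMul g) k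

/-- **naturality**, multiplicative form: `tC` an endomorphism of the group of characters trivial on
`S`, `tZ` an endomorphism of the homomorphisms to `ℤ_[p]` vanishing on `S`, compatible with the
reductions `a ↦ ζ_k ^ a`. -/
theorem tateChar_map (tC : Additive ↥(charS S) →+ Additive ↥(charS S))
    (tZ : ↥(homSMod (addSet S) ℤ_[p] ℤ_[p]) →+ ↥(homSMod (addSet S) ℤ_[p] ℤ_[p]))
    (hnat : ∀ (k : ℕ) (ψ : ↥(homSMod (addSet S) ℤ_[p] ℤ_[p])),
      redHomS p (addSet S) k (tZ ψ) =
        charAddEquiv S (tC ((charAddEquiv S).symm (redHomS p (addSet S) k ψ))))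
    (x : Tp p (Additive ↥(charS S))) :
    tateChar p S (Tp.map tC x) = tZ (tateChar p S x) := by
  have h := tateHomS_map p (addSet S)
    (((charAddEquiv S : Additive ↥(charS S) →+ _).comp tC).comp
      ((charAddEquiv S).symm : _ →+ Additive ↥(charS S))) tZ hnat (tpCongr (charAddEquiv S) x)
  refine Eq.trans ?_ h
  show tateHomS p (addSet S) (tpCongr (charAddEquiv S) (Tp.map tC x)) = _
  congr 1

/-! ### elements of finite order are killed automatically by torsion-free coefficients -/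

theorem map_eq_zero_of_isOfFinOrder {M : Type*} [AddCommGroup M] [Module.IsTorsionFree ℤ M]
    (φ : Additive G →+ M) {g : G} (hg : IsOfFinOrder g) : φ (Additive.ofMul g) = 0 := by
  obtain ⟨n, hn, hgn⟩ := isOfFinOrder_iff_pow_eq_one.mp hg
  have h1 : n • φ (Additive.ofMul g) = 0 := by
    rw [← map_nsmul, ← ofMul_pow, hgn, ofMul_one, map_zero]
  have h2 : (n : ℤ) • φ (Additive.ofMul g) = 0 := by rwa [natCast_zsmul]
  exact (smul_eq_zero.mp h2).resolve_left (by exact_mod_cast hn.ne')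

/-- adding the elements of finite order to `S` does not change the homomorphisms into a
torsion-free module which vanish on `S` -/
theorem homSMod_union_finOrder (R : Type*) [Semiring R] (M : Type*) [AddCommGroup M] [Module R M]
    [Module.IsTorsionFree ℤ M] :
    homSMod (addSet (S ∪ {g : G | IsOfFinOrder g})) R M = homSMod (addSet S) R M := by
  ext φ
  constructor
  · intro h s hs
    exact h s (Or.inl hs)
  · intro h s hs
    rcases hs with hs | hs
    · exact h s hs
    · exact map_eq_zero_of_isOfFinOrder φ hs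

/-- **the blueprint shape**: characters trivial on `S` AND on all elements of finite order have
Tate module the homomorphisms to `ℤ_[p]` vanishing on `S`. -/
def tateCharFin :
    Tp p (Additive ↥(charS (S ∪ {g : G | IsOfFinOrder g}))) ≃ₗ[ℤ_[p]]
      ↥(homSMod (addSet S) ℤ_[p] ℤ_[p]) :=
  (tateChar p (S ∪ {g : G | IsOfFinOrder g})).trans
    (LinearEquiv.ofEq _ _ (homSMod_union_finOrder S ℤ_[p] ℤ_[p]))

theorem tateCharFin_spec (x : Tp p (Additive ↥(charS (S ∪ {g : G | IsOfFinOrder g}))))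
    (g : G) (k : ℕ) :
    ((Additive.toMul (x.1 k) : ↥(charS (S ∪ {g : G | IsOfFinOrder g}))) : G →* ℂˣ) g =
      zetaC p k ^ ((tateCharFin p S x : Additive G →+ ℤ_[p]) (Additive.ofMul g)).appr k :=
  tateChar_spec p (S ∪ {g : G | IsOfFinOrder g}) x g k

end Characters

end Fermat.Agent.S30.Padic.TateHom
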