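/-
PROJECT J (S30), slice J-5a (helper21): the Tate module of the character group `X = charGroup N`
of `Γ₀(N)` is the lattice `ℤ_[p] ⊗ Hom_par(Γ₀(N), ℤ)`, naturally for operators which are natural in
the coefficient group (double-coset operators).

This is the concrete instance `G := Γ₀(N)`, `S := parabolic elements` of `Padic/TateHom.lean`,
composed with the base change `ℤ_[p] ⊗ Hom_par(Γ, ℤ) ≃ Hom_par(Γ, ℤ_[p])` of
`Lattice/BaseChange.lean`.  It is the middle part of the comparison isomorphism `e_p` of the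
input `(H3)` of `Final/Chain.lean`.

* `charGroupAddEquiv N` : `Additive (charGroup N) ≃+ homS (parabolic ∪ finite order) (Additive ℂˣ)`;
* `tateCharGroup N p` : `Tp p (Additive (charGroup N)) ≃ₗ[ℤ_[p]] parabolicHoms ℤ_[p] (Gamma0 N) ℤ_[p]`,
  `tateCharGroup_spec` : `ψ_k(g) = ζ_k ^ (φ(g) mod p ^ k)`;
* `tateLattice N p` :
  `Tp p (Additive (charGroup N)) ≃ₗ[ℤ_[p]] ℤ_[p] ⊗[ℤ] parabolicHoms ℤ (Gamma0 N) ℤ`;
* `CoeffNatural t` : the family `t A : Hom(Γ₀(N), A) → Hom(Γ₀(N), A)` is natural in `A`, preserves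
  parabolic homomorphisms and the characters trivial on elements of finite order;
  `charOp`, `parOp` its restrictions;
* `tateCharGroup_map`, `tateLattice_map` : the equivalences intertwine `Tp.map (charOp ht)` with
  `parOp ℤ_[p] ℤ_[p] ht`, resp. `(parOp ℤ ℤ ht).baseChange ℤ_[p]`;
* `coeffNatural_heckeHom`, `coeffNatural_tauFamily` : every double-coset operator of `Γ₀(N)`, in
  particular `tauAll N r hr`, is such a family; `tauMul`, `tauChar` the operator `τ_r` on characters;
* `tateCharGroup_tauChar`, `tateLattice_tauChar` : the `(H3)` shape for `τ_r`, with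
  `M := parabolicHoms ℤ (Gamma0 N) ℤ` and `τ r := tauPar ℤ ℤ N r hr`.
-/
import Fermat.Agent.S30.Padic.TateHom
import Fermat.Agent.S30.Spec
import Fermat.Agent.S30.Lattice.BaseChange
import Fermat.Agent.S30.Hecke.Parabolic

set_option autoImplicit false

noncomputable section

namespace Fermat.Agent.S30.Padic.TateChar

open Fermat.Agent.S30.Padic.TateModule Fermat.Agent.S30.Padic.TateHom
open Fermat.Agent.S30.Lattice.BaseChange
open ModularCurve.Period CongruenceSubgroup TensorProduct
open scoped MatrixGroups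

/-! ### the two descriptions of the character group and of the parabolic homomorphisms -/

section Sets

variable (N : ℕ)

/-- the set of parabolic elements and of elements of finite order of `Γ₀(N)` -/
def parFinSet : Set ↥(Gamma0 N) := parSet (Gamma0 N) ∪ {g : ↥(Gamma0 N) | IsOfFinOrder g}

theorem mem_parFinSet {g : ↥(Gamma0 N)} :
    g ∈ parFinSet N ↔
      ((g : SL(2, ℤ)) : Matrix (Fin 2) (Fin 2) ℤ).trace ^ 2 = 4 ∨ IsOfFinOrder g := Iff.rfl

/-- `charGroup N` is the group of characters trivial on `parFinSet N`. -/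
theorem charGroup_eq : Spec.charGroup N = charS (parFinSet N) := by
  ext ψ
  constructor
  · rintro ⟨h1, h2⟩ s (hs | hs)
    · exact h1 s hs
    · exact h2 s hs
  · intro h
    exact ⟨fun γ hγ => h γ (Or.inl hγ), fun γ hγ => h γ (Or.inr hγ)⟩

/-- the Prelude's parabolic homomorphisms are the homomorphisms vanishing on the parabolic set -/
theorem homSMod_parSet (R : Type*) [Semiring R] (A : Type*) [AddCommGroup A] [Module R A] :
    homSMod (addSet (parSet (Gamma0 N))) R A = parabolicHoms R (Gamma0 N) A := by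
  ext φ
  constructor
  · intro h γ hγ
    exact h (Additive.ofMul γ) hγ
  · intro h s hs
    exact h (Additive.toMul s) hs

/-- with torsion-free coefficients, the elements of finite order are killed automatically -/
theorem homSMod_parFinSet (R : Type*) [Semiring R] (A : Type*) [AddCommGroup A] [Module R A]
    [Module.IsTorsionFree ℤ A] :
    homSMod (addSet (parFinSet N)) R A = parabolicHoms R (Gamma0 N) A :=
  (homSMod_union_finOrder (parSet (Gamma0 N)) R A).trans (homSMod_parSet N R A)

end Sets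

/-! ### the Tate module of the character group -/

section Tate

variable (N : ℕ) (p : ℕ) [hp : Fact p.Prime]

/-- the characters of `charGroup N`, written additively with values in `Additive ℂˣ` -/
def charGroupAddEquiv :
    Additive ↥(Spec.charGroup N) ≃+ ↥(homS (addSet (parFinSet N)) (Additive ℂˣ)) where
  toFun ψ := ⟨MonoidHom.toAdditive ((Additive.toMul ψ : ↥(Spec.charGroup N)) : _ →* ℂˣ),
    fun s hs => by
      rcases hs with hs | hs
      · exact congrArg Additive.ofMul ((Additive.toMul ψ).2.1 (Additive.toMul s) hs)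
      · exact congrArg Additive.ofMul ((Additive.toMul ψ).2.2 (Additive.toMul s) hs)⟩
  invFun φ := Additive.ofMul ⟨MonoidHom.toAdditive.symm φ.1,
    fun γ hγ => congrArg Additive.toMul (φ.2 (Additive.ofMul γ) (Or.inl hγ)),
    fun γ hγ => congrArg Additive.toMul (φ.2 (Additive.ofMul γ) (Or.inr hγ))⟩
  left_inv _ := rfl
  right_inv _ := rfl
  map_add' _ _ := rfl

@[simp] theorem charGroupAddEquiv_apply (ψ : Additive ↥(Spec.charGroup N))
    (h : Additive ↥(Gamma0 N)) :
    (charGroupAddEquiv N ψ : Additive ↥(Gamma0 N) →+ Additive ℂˣ) h =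
      Additive.ofMul (((Additive.toMul ψ : ↥(Spec.charGroup N)) : ↥(Gamma0 N) →* ℂˣ)
        (Additive.toMul h)) := rfl

/-- **The Tate module of the character group `X = charGroup N` is `Hom_par(Γ₀(N), ℤ_[p])`.** -/
def tateCharGroup :
    Tp p (Additive ↥(Spec.charGroup N)) ≃ₗ[ℤ_[p]] ↥(parabolicHoms ℤ_[p] (Gamma0 N) ℤ_[p]) :=
  (tpCongr (charGroupAddEquiv N)).trans
    ((tateHomS p (addSet (parFinSet N))).trans
      (LinearEquiv.ofEq _ _ (homSMod_parFinSet N ℤ_[p] ℤ_[p])))

/-- the defining property: `ψ_k(g) = ζ_k ^ (φ g mod p ^ k)` for `φ = tateCharGroup x`,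
`ζ_k = exp (2πi / p ^ k)`. -/
theorem tateCharGroup_spec (x : Tp p (Additive ↥(Spec.charGroup N))) (g : ↥(Gamma0 N)) (k : ℕ) :
    ((Additive.toMul (x.1 k) : ↥(Spec.charGroup N)) : ↥(Gamma0 N) →* ℂˣ) g =
      zetaC p k ^
        ((tateCharGroup N p x : Additive ↥(Gamma0 N) →+ ℤ_[p]) (Additive.ofMul g)).appr k :=
  tateHomS_spec' p (addSet (parFinSet N)) (tpCongr (charGroupAddEquiv N) x) (Additive.ofMul g) k

variable [NeZero N]

/-- **The Tate module of the character group is the lattice `ℤ_[p] ⊗ Hom_par(Γ₀(N), ℤ)`.** -/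
def tateLattice :
    Tp p (Additive ↥(Spec.charGroup N)) ≃ₗ[ℤ_[p]]
      ℤ_[p] ⊗[ℤ] ↥(parabolicHoms ℤ (Gamma0 N) ℤ) :=
  (tateCharGroup N p).trans (baseChangeEquiv (Gamma0 N) ℤ_[p]).symm

theorem baseChangeEquiv_tateLattice (x : Tp p (Additive ↥(Spec.charGroup N))) :
    baseChangeEquiv (Gamma0 N) ℤ_[p] (tateLattice N p x) = tateCharGroup N p x :=
  LinearEquiv.apply_symm_apply _ _

end Tate

/-! ### operators natural in the coefficient group -/

section Natural

variable {N : ℕ}

/-- A family of operators `t A` on `Hom(Γ₀(N), A)`, one for each coefficient group `A`, which is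
natural in `A`, preserves the parabolic homomorphisms, and preserves the parabolic characters (with
values in `ℂˣ`) which are trivial on the elements of finite order.  Example: the double-coset
operators `CosetData.heckeHom`, in particular `tauAll N r hr`. -/
structure CoeffNatural (t : ∀ (A : Type) [AddCommGroup A],
    (Additive ↥(Gamma0 N) →+ A) →+ (Additive ↥(Gamma0 N) →+ A)) : Prop where
  comp : ∀ {A B : Type} [AddCommGroup A] [AddCommGroup B] (f : A →+ B)
    (φ : Additive ↥(Gamma0 N) →+ A), f.comp (t A φ) = t B (f.comp φ)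
  par : ∀ {A : Type} [AddCommGroup A] (φ : Additive ↥(Gamma0 N) →+ A),
    IsParabolicHom (Gamma0 N) φ → IsParabolicHom (Gamma0 N) (t A φ)
  fin : ∀ φ : Additive ↥(Gamma0 N) →+ Additive ℂˣ, IsParabolicHom (Gamma0 N) φ →
    (∀ g : ↥(Gamma0 N), IsOfFinOrder g → φ (Additive.ofMul g) = 0) →
    ∀ g : ↥(Gamma0 N), IsOfFinOrder g → t (Additive ℂˣ) φ (Additive.ofMul g) = 0

variable {t : ∀ (A : Type) [AddCommGroup A],
    (Additive ↥(Gamma0 N) →+ A) →+ (Additive ↥(Gamma0 N) →+ A)}

theorem CoeffNatural.mem_homS (ht : CoeffNatural t) (φ : Additive ↥(Gamma0 N) →+ Additive ℂˣ)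
    (hφ : φ ∈ homS (addSet (parFinSet N)) (Additive ℂˣ)) :
    t (Additive ℂˣ) φ ∈ homS (addSet (parFinSet N)) (Additive ℂˣ) := by
  have h1 : IsParabolicHom (Gamma0 N) φ := fun γ hγ => hφ (Additive.ofMul γ) (Or.inl hγ)
  have h2 : ∀ g : ↥(Gamma0 N), IsOfFinOrder g → φ (Additive.ofMul g) = 0 :=
    fun g hg => hφ (Additive.ofMul g) (Or.inr hg)
  intro s hs
  rcases hs with hs | hs
  · exact ht.par φ h1 (Additive.toMul s) hs
  · exact ht.fin φ h1 h2 (Additive.toMul s) hs

theorem CoeffNatural.smul (ht : CoeffNatural t) {R : Type} [Semiring R] {A : Type}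
    [AddCommGroup A] [Module R A] (c : R) (φ : Additive ↥(Gamma0 N) →+ A) :
    t A (c • φ) = c • t A φ :=
  (ht.comp (DistribSMul.toAddMonoidHom A c) φ).symm

/-- the operator on the characters of `charGroup N`, written additively -/
def charOp (ht : CoeffNatural t) : Additive ↥(Spec.charGroup N) →+ Additive ↥(Spec.charGroup N) :=
  ((charGroupAddEquiv N).symm.toAddMonoidHom.comp
    (restrictHomS (addSet (parFinSet N)) (t (Additive ℂˣ)) ht.mem_homS)).comp
    (charGroupAddEquiv N).toAddMonoidHom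

theorem charGroupAddEquiv_charOp (ht : CoeffNatural t) (ψ : Additive ↥(Spec.charGroup N)) :
    (charGroupAddEquiv N (charOp ht ψ) : Additive ↥(Gamma0 N) →+ Additive ℂˣ) =
      t (Additive ℂˣ) (charGroupAddEquiv N ψ : Additive ↥(Gamma0 N) →+ Additive ℂˣ) := by
  have h : charGroupAddEquiv N (charOp ht ψ) =
      restrictHomS (addSet (parFinSet N)) (t (Additive ℂˣ)) ht.mem_homS
        (charGroupAddEquiv N ψ) := AddEquiv.apply_symm_apply _ _
  rw [h]
  rfl

/-- the character `charOp ht ψ`, evaluated -/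
theorem charOp_apply (ht : CoeffNatural t) (ψ : ↥(Spec.charGroup N)) (g : ↥(Gamma0 N)) :
    ((Additive.toMul (charOp ht (Additive.ofMul ψ)) : ↥(Spec.charGroup N)) :
        ↥(Gamma0 N) →* ℂˣ) g =
      Additive.toMul (t (Additive ℂˣ) (MonoidHom.toAdditive (ψ : ↥(Gamma0 N) →* ℂˣ))
        (Additive.ofMul g)) := by
  have h := congrArg (fun φ : Additive ↥(Gamma0 N) →+ Additive ℂˣ => φ (Additive.ofMul g))
    (charGroupAddEquiv_charOp ht (Additive.ofMul ψ))
  exact congrArg Additive.toMul h

/-- if the additive operator comes from a multiplicative one `tM` (e.g. `heckeHomMul`), then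
`charOp` is `tM` on the underlying characters -/
theorem charOp_eq_of_mul (ht : CoeffNatural t)
    (tM : (↥(Gamma0 N) →* ℂˣ) → (↥(Gamma0 N) →* ℂˣ))
    (hM : ∀ ψ : ↥(Gamma0 N) →* ℂˣ,
      t (Additive ℂˣ) (MonoidHom.toAdditive ψ) = MonoidHom.toAdditive (tM ψ))
    (ψ : ↥(Spec.charGroup N)) :
    ((Additive.toMul (charOp ht (Additive.ofMul ψ)) : ↥(Spec.charGroup N)) :
        ↥(Gamma0 N) →* ℂˣ) = tM ψ := by
  refine MonoidHom.ext fun g => ?_
  rw [charOp_apply, hM]
  rfl

/-- the operator on the parabolic homomorphisms with values in an `R`-module `A` -/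
def parOp (R : Type) [Semiring R] (A : Type) [AddCommGroup A] [Module R A]
    (ht : CoeffNatural t) : Module.End R ↥(parabolicHoms R (Gamma0 N) A) where
  toFun φ := ⟨t A φ.1, ht.par φ.1 φ.2⟩
  map_add' φ ψ := Subtype.ext (map_add (t A) φ.1 ψ.1)
  map_smul' c φ := Subtype.ext (ht.smul c φ.1)

@[simp] theorem coe_parOp (R : Type) [Semiring R] (A : Type) [AddCommGroup A] [Module R A]
    (ht : CoeffNatural t) (φ : ↥(parabolicHoms R (Gamma0 N) A)) :
    (parOp R A ht φ : Additive ↥(Gamma0 N) →+ A) = t A φ := rfl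

variable (p : ℕ) [hp : Fact p.Prime]

/-- **naturality of `tateCharGroup`** -/
theorem tateCharGroup_map (ht : CoeffNatural t) (x : Tp p (Additive ↥(Spec.charGroup N))) :
    tateCharGroup N p (Tp.map (charOp ht) x) = parOp ℤ_[p] ℤ_[p] ht (tateCharGroup N p x) := by
  have hZ : ∀ ψ ∈ homSMod (addSet (parFinSet N)) ℤ_[p] ℤ_[p],
      t ℤ_[p] ψ ∈ homSMod (addSet (parFinSet N)) ℤ_[p] ℤ_[p] := by
    intro ψ hψ
    rw [homSMod_parFinSet] at hψ ⊢
    exact ht.par ψ hψ
  have h := tateHomS_map' p (addSet (parFinSet N)) (t (Additive ℂˣ)) (t ℤ_[p]) ht.mem_homS hZ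
    (fun k ψ => ht.comp (redUnits p k) ψ) (tpCongr (charGroupAddEquiv N) x)
  apply Subtype.ext
  have h' := congrArg (fun ψ : ↥(homSMod (addSet (parFinSet N)) ℤ_[p] ℤ_[p]) =>
    (ψ : Additive ↥(Gamma0 N) →+ ℤ_[p])) h
  refine Eq.trans ?_ h'
  show ((tateHomS p (addSet (parFinSet N)))
    (tpCongr (charGroupAddEquiv N) (Tp.map (charOp ht) x)) : Additive ↥(Gamma0 N) →+ ℤ_[p]) = _
  congr 2

variable [NeZero N]

/-- **naturality of `tateLattice`**, in the shape of `(H3)` of `Final/Chain.lean`: the operator on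
the character group corresponds to the base change of the operator on the integral lattice
`Hom_par(Γ₀(N), ℤ)`. -/
theorem tateLattice_map (ht : CoeffNatural t) (x : Tp p (Additive ↥(Spec.charGroup N))) :
    tateLattice N p (Tp.map (charOp ht) x) =
      (parOp ℤ ℤ ht).baseChange ℤ_[p] (tateLattice N p x) := by
  apply (baseChangeEquiv (Gamma0 N) ℤ_[p]).injective
  rw [baseChangeEquiv_tateLattice, tateCharGroup_map,
    baseChangeEquiv_comm (Gamma0 N) ℤ_[p] (parOp ℤ ℤ ht) (parOp ℤ_[p] ℤ_[p] ht) ?_,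
    baseChangeEquiv_tateLattice]
  intro φ
  apply Subtype.ext
  exact (ht.comp (Int.castAddHom ℤ_[p]) (φ : Additive ↥(Gamma0 N) →+ ℤ)).symm

end Natural

/-! ### the double-coset operators are natural in the coefficient group -/

section DoubleCoset

open Fermat.Agent.S30.Hecke.DoubleCoset Fermat.Agent.S30.Hecke.Gamma0Cosets
open Fermat.Agent.S30.Hecke.Parabolic

/-- a double-coset operator preserves the homomorphisms vanishing on the elements of finite order
(at a fixed point `x` of `g ^ m` the cocycle `coc (g ^ m) x` is conjugate to `g ^ m`) -/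
theorem heckeHom_apply_eq_zero_of_isOfFinOrder {Γ G : Type*} [Group Γ] [Group G] {ι : Γ →* G}
    (hι : Function.Injective ι) {X : Type*} [Fintype X] (D : CosetData ι X)
    {A : Type*} [AddCommGroup A] (φ : Additive Γ →+ A)
    (hφ : ∀ g : Γ, IsOfFinOrder g → φ (Additive.ofMul g) = 0) (g : Γ) (hg : IsOfFinOrder g) :
    D.heckeHom φ (Additive.ofMul g) = 0 := by
  classical
  refine D.heckeHom_apply_eq_zero φ g fun x m _ hx => hφ _ ?_
  have hrel := D.rel (g ^ m) x
  rw [hx] at hrel
  have h1 : ι (D.coc (g ^ m) x) = MulAut.conj (D.rep x) (ι (g ^ m)) := by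
    rw [MulAut.conj_apply, hrel, mul_inv_cancel_right]
  have h2 : IsOfFinOrder (ι (D.coc (g ^ m) x)) := by
    rw [h1]
    exact (MulAut.conj (D.rep x)).toMonoidHom.isOfFinOrder (ι.isOfFinOrder (hg.pow))
  exact (hι.isOfFinOrder_iff).mp h2

/-- every double-coset operator of `Γ₀(N)` in `GL(2, ℝ)` is a `CoeffNatural` family -/
theorem coeffNatural_heckeHom (N : ℕ) {X : Type*} [Fintype X] (D : CosetData (iota N) X) :
    CoeffNatural (fun (A : Type) (_ : AddCommGroup A) =>
      (D.heckeHom : (Additive ↥(Gamma0 N) →+ A) →+ (Additive ↥(Gamma0 N) →+ A))) where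
  comp f φ := D.comp_heckeHom f φ
  par _ hφ := heckeHom_isParabolicHom D hφ
  fin φ _ hφ g hg := heckeHom_apply_eq_zero_of_isOfFinOrder (iota_injective N) D φ hφ g hg

/-- the operators `tauAll N r hr` preserve the homomorphisms vanishing on the elements of finite
order -/
theorem tauAll_apply_eq_zero_of_isOfFinOrder (N r : ℕ) (hr : r.Prime) {A : Type*}
    [AddCommGroup A] (φ : Additive ↥(Gamma0 N) →+ A)
    (hφ : ∀ g : ↥(Gamma0 N), IsOfFinOrder g → φ (Additive.ofMul g) = 0) (g : ↥(Gamma0 N))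
    (hg : IsOfFinOrder g) : tauAll N r hr φ (Additive.ofMul g) = 0 := by
  unfold tauAll
  split_ifs with h
  · exact heckeHom_apply_eq_zero_of_isOfFinOrder (iota_injective N) _ φ hφ g hg
  · exact heckeHom_apply_eq_zero_of_isOfFinOrder (iota_injective N) _ φ hφ g hg

/-- the family `A ↦ tauAll N r hr` on `Hom(Γ₀(N), A)` -/
def tauFamily (N r : ℕ) (hr : r.Prime) : ∀ (A : Type) [AddCommGroup A],
    (Additive ↥(Gamma0 N) →+ A) →+ (Additive ↥(Gamma0 N) →+ A) :=
  fun _ _ => tauAll N r hr

/-- **the standard Hecke operators `τ_r = tauAll N r hr` (all primes `r`) form a `CoeffNatural`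
family** -/
theorem coeffNatural_tauFamily (N r : ℕ) (hr : r.Prime) : CoeffNatural (tauFamily N r hr) where
  comp f φ := comp_tauAll f r hr φ
  par _ hφ := tauAll_isParabolicHom hr hφ
  fin φ _ hφ g hg := tauAll_apply_eq_zero_of_isOfFinOrder N r hr φ hφ g hg

/-- the restriction of the family to the parabolic homomorphisms is `tauPar` -/
theorem parOp_tauFamily (R : Type) [Semiring R] (A : Type) [AddCommGroup A] [Module R A]
    (N r : ℕ) (hr : r.Prime) :
    parOp R A (coeffNatural_tauFamily N r hr) = tauPar R A N r hr := by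
  refine LinearMap.ext fun φ => Subtype.ext ?_
  rw [coe_tauPar]
  rfl

/-- the multiplicative twin of `tauAll`: the standard Hecke operator `τ_r` on the characters of
`Γ₀(N)` with values in a commutative group -/
def tauMul (N r : ℕ) (hr : r.Prime) {M : Type*} [CommGroup M] :
    (↥(Gamma0 N) →* M) →* (↥(Gamma0 N) →* M) :=
  if h : r ∣ N then (cosetU hr h).heckeHomMul else (cosetT hr h).heckeHomMul

theorem tauAll_toAdditive (N r : ℕ) (hr : r.Prime) {M : Type*} [CommGroup M]
    (ψ : ↥(Gamma0 N) →* M) :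
    tauAll N r hr (MonoidHom.toAdditive ψ) = MonoidHom.toAdditive (tauMul N r hr ψ) := by
  unfold tauAll tauMul
  split_ifs with h
  · exact CosetData.heckeHom_toAdditive _ ψ
  · exact CosetData.heckeHom_toAdditive _ ψ

/-- **`τ_r` on the character group `charGroup N`**, written additively -/
def tauChar (N r : ℕ) (hr : r.Prime) :
    Additive ↥(Spec.charGroup N) →+ Additive ↥(Spec.charGroup N) :=
  charOp (coeffNatural_tauFamily N r hr)

/-- the underlying character of `tauChar N r hr ψ` is `tauMul N r hr ψ` -/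
theorem coe_tauChar (N r : ℕ) (hr : r.Prime) (ψ : ↥(Spec.charGroup N)) :
    ((Additive.toMul (tauChar N r hr (Additive.ofMul ψ)) : ↥(Spec.charGroup N)) :
        ↥(Gamma0 N) →* ℂˣ) = tauMul N r hr (ψ : ↥(Gamma0 N) →* ℂˣ) :=
  charOp_eq_of_mul (coeffNatural_tauFamily N r hr) (tauMul N r hr)
    (fun ψ => tauAll_toAdditive N r hr ψ) ψ

theorem tauMul_mem_charGroup (N r : ℕ) (hr : r.Prime) {ψ : ↥(Gamma0 N) →* ℂˣ}
    (hψ : ψ ∈ Spec.charGroup N) : tauMul N r hr ψ ∈ Spec.charGroup N := by
  rw [← coe_tauChar N r hr ⟨ψ, hψ⟩]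
  exact (Additive.toMul (tauChar N r hr (Additive.ofMul ⟨ψ, hψ⟩))).2

variable (p : ℕ) [hp : Fact p.Prime]

/-- **`tateCharGroup` intertwines `τ_r` on the characters with `τ_r` on `Hom_par(Γ₀(N), ℤ_[p])`** -/
theorem tateCharGroup_tauChar (N r : ℕ) (hr : r.Prime)
    (x : Tp p (Additive ↥(Spec.charGroup N))) :
    tateCharGroup N p (Tp.map (tauChar N r hr) x) =
      tauPar ℤ_[p] ℤ_[p] N r hr (tateCharGroup N p x) := by
  rw [← parOp_tauFamily]
  exact tateCharGroup_map p (coeffNatural_tauFamily N r hr) x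

/-- **`tateLattice` intertwines `τ_r` on the characters with the base change of `τ_r` on the
integral lattice `M = Hom_par(Γ₀(N), ℤ)`**: the shape of `(H3)` of `Final/Chain.lean` with
`M := parabolicHoms ℤ (Gamma0 N) ℤ`, `τ r := tauPar ℤ ℤ N r r.2`. -/
theorem tateLattice_tauChar (N : ℕ) [NeZero N] (r : ℕ) (hr : r.Prime)
    (x : Tp p (Additive ↥(Spec.charGroup N))) :
    tateLattice N p (Tp.map (tauChar N r hr) x) =
      (tauPar ℤ ℤ N r hr).baseChange ℤ_[p] (tateLattice N p x) := by
  rw [← parOp_tauFamily]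
  exact tateLattice_map p (coeffNatural_tauFamily N r hr) x

end DoubleCoset

end Fermat.Agent.S30.Padic.TateChar
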