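import Fermat.Agent.S30.Padic.EigenLattice

/-!
# PROJECT J, slice J-5-X: the rank of an eigen-lattice through a `ℤ`-structure

`R` a principal ideal domain with fraction field `L`, `V` a finite free `R`-module with operators
`t i`, `M` a `ℤ`-module with operators `τ i`, and `e : V ≃ₗ[R] R ⊗[ℤ] M` an isomorphism intertwining
`t i` with the base change of `τ i`.  Then the rank of the eigen-lattice of `V` is the dimension of
the eigenspace of `L ⊗[ℤ] M`.

* `toFrac R L M : R ⊗[ℤ] M →ₗ[R] L ⊗[ℤ] M`, an `IsLocalizedModule`.
* `finrank_eigenLattice_of_equiv`.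
-/

set_option autoImplicit false

namespace Fermat.Agent.S30.Padic.EigenCompare

open TensorProduct Fermat.Agent.S30.Padic.EigenLattice

variable (R : Type*) [CommRing R] (L : Type*) [Field L] [Algebra R L] [IsFractionRing R L]
variable (M : Type*) [AddCommGroup M]

/-- The map `R ⊗[ℤ] M → L ⊗[ℤ] M` induced by `R → L`. -/
noncomputable def toFrac : R ⊗[ℤ] M →ₗ[R] L ⊗[ℤ] M :=
  AlgebraTensorModule.rTensor ℤ M (Algebra.linearMap R L)

omit [IsFractionRing R L] in
@[simp]
theorem toFrac_tmul (r : R) (m : M) : toFrac R L M (r ⊗ₜ m) = algebraMap R L r ⊗ₜ m := rfl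

instance isLocalizedModule_toFrac : IsLocalizedModule (nonZeroDivisors R) (toFrac R L M) := by
  unfold toFrac
  infer_instance

omit [IsFractionRing R L] in
theorem baseChange_toFrac (τ : Module.End ℤ M) (x : R ⊗[ℤ] M) :
    τ.baseChange L (toFrac R L M x) = toFrac R L M (τ.baseChange R x) := by
  induction x using TensorProduct.induction_on with
  | zero => simp
  | tmul r m => simp
  | add x y hx hy => rw [map_add, map_add, hx, hy, map_add, map_add]

variable {R M}
variable [IsDomain R] [IsPrincipalIdealRing R]
variable {V : Type*} [AddCommGroup V] [Module R V] [Module.Free R V] [Module.Finite R V]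
variable {ι : Type*} (t : ι → Module.End R V) (c : ι → R)

/-- The rank of the eigen-lattice computed through a `ℤ`-structure. -/
theorem finrank_eigenLattice_of_equiv (τ : ι → Module.End ℤ M) (e : V ≃ₗ[R] R ⊗[ℤ] M)
    (he : ∀ i v, e (t i v) = (τ i).baseChange R (e v)) :
    Module.finrank R (eigenLattice t c) =
      Module.finrank L (eigenLattice (fun i => (τ i).baseChange L)
        (fun i => algebraMap R L (c i))) := by
  have : IsLocalizedModule (nonZeroDivisors R) (toFrac R L M ∘ₗ e.toLinearMap) :=
    IsLocalizedModule.of_linearEquiv_right (nonZeroDivisors R) (toFrac R L M) e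
  refine finrank_eigenLattice_eq t c L (toFrac R L M ∘ₗ e.toLinearMap)
    (fun i => (τ i).baseChange L) ?_
  intro i v
  simp only [LinearMap.coe_comp, LinearEquiv.coe_coe, Function.comp_apply]
  rw [he, baseChange_toFrac]

end Fermat.Agent.S30.Padic.EigenCompare
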