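import Mathlib
import Fermat.Prelude.Def_GaloisRep_Adic

/-!
# PROJECT J, slice J-5-L: the eigen-lattice of a family of operators

`R` a local principal ideal domain (the ring `𝒪''` of S30), `V` a finite free `R`-module with an
adically continuous action `ρV` of the absolute Galois group of `ℚ`, `t i` a family of
`R`-endomorphisms of `V` commuting with the Galois action, `c i` a family of scalars.  The
eigen-lattice `L = ⋂ ker (t i - c i)` is a saturated, Galois-stable, finite free submodule of `V`
and the Galois action on it is again adically continuous.  If it has rank two it is a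
`GaloisRepAdic R`.

* `eigenLattice t c`, `mem_eigenLattice`, `smul_mem_eigenLattice_iff` (saturation),
  `map_mem_eigenLattice` (stability under commuting endomorphisms),
  `mem_pow_smul_top_eigenLattice` (`𝔪ⁿ V ∩ L = 𝔪ⁿ L`).
* `galoisRep t c ρV hcomm hcont h2 : GaloisRepAdic R` with underlying module `eigenLattice t c`;
  `galoisRep_apply`, `galoisRep_eq_one`, `galoisRep_quadratic`.
* `finrank_eigenLattice_eq` : the rank of `L` is the dimension of the eigenspace of the localised
  operators over the fraction field.
-/

set_option autoImplicit false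

namespace Fermat.Agent.S30.Padic.EigenLattice

open IsLocalRing

section Lattice

variable {R : Type*} [CommRing R] {V : Type*} [AddCommGroup V] [Module R V]
variable {ι : Type*} (t : ι → Module.End R V) (c : ι → R)

/-- The common eigen-lattice of the operators `t i` for the eigenvalues `c i`. -/
def eigenLattice : Submodule R V :=
  ⨅ i, LinearMap.ker (t i - c i • (1 : Module.End R V))

variable {t c}

theorem mem_eigenLattice {v : V} : v ∈ eigenLattice t c ↔ ∀ i, t i v = c i • v := by
  simp only [eigenLattice, Submodule.mem_iInf, LinearMap.mem_ker, LinearMap.sub_apply,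
    LinearMap.smul_apply, Module.End.one_apply, sub_eq_zero]

theorem apply_eq_smul {v : V} (hv : v ∈ eigenLattice t c) (i : ι) : t i v = c i • v :=
  mem_eigenLattice.1 hv i

/-- The eigen-lattice is stable under every endomorphism commuting with all the operators. -/
theorem map_mem_eigenLattice {f : Module.End R V} (hf : ∀ i, Commute f (t i)) {v : V}
    (hv : v ∈ eigenLattice t c) : f v ∈ eigenLattice t c := by
  rw [mem_eigenLattice] at hv ⊢
  intro i
  have h : t i (f v) = f (t i v) := by
    have := congrArg (fun g : Module.End R V => g v) (hf i).eq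
    simpa [Module.End.mul_apply] using this.symm
  rw [h, hv i, map_smul]

/-- The eigen-lattice is saturated. -/
theorem smul_mem_eigenLattice_iff [IsDomain R] [Module.IsTorsionFree R V] {r : R} (hr : r ≠ 0)
    {v : V} : r • v ∈ eigenLattice t c ↔ v ∈ eigenLattice t c := by
  refine ⟨fun h => ?_, fun h => Submodule.smul_mem _ r h⟩
  rw [mem_eigenLattice] at h ⊢
  intro i
  have h1 := h i
  rw [map_smul, smul_comm (c i) r v] at h1
  exact smul_right_injective V hr h1

/-- `I V ∩ L = I L` for a principal ideal `I`. -/
theorem mem_smul_top_eigenLattice [IsDomain R] [Module.IsTorsionFree R V] (I : Ideal R)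
    (hI : I.IsPrincipal) (v : eigenLattice t c)
    (hv : (v : V) ∈ I • (⊤ : Submodule R V)) :
    v ∈ I • (⊤ : Submodule R (eigenLattice t c)) := by
  obtain ⟨a, rfl⟩ := hI.principal
  change (v : V) ∈ Ideal.span {a} • (⊤ : Submodule R V) at hv
  change v ∈ Ideal.span {a} • (⊤ : Submodule R (eigenLattice t c))
  rw [Submodule.ideal_span_singleton_smul, Submodule.mem_smul_pointwise_iff_exists] at hv ⊢
  obtain ⟨w, -, hw⟩ := hv
  by_cases ha : a = 0
  · refine ⟨0, Submodule.mem_top, ?_⟩
    apply Subtype.ext
    rw [smul_zero, Submodule.coe_zero, ← hw, ha, zero_smul]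
  · have hwL : w ∈ eigenLattice t c := by
      rw [← smul_mem_eigenLattice_iff ha, hw]
      exact v.2
    exact ⟨⟨w, hwL⟩, Submodule.mem_top, Subtype.ext hw⟩

end Lattice

section Restrict

variable {R : Type*} [CommRing R] {V : Type*} [AddCommGroup V] [Module R V]
variable {ι : Type*} (t : ι → Module.End R V) (c : ι → R) {G : Type*} [Monoid G]

/-- The restriction of an action commuting with the operators to the eigen-lattice. -/
def restrictHom (ρV : G →* Module.End R V)
    (hcomm : ∀ σ i, Commute (ρV σ) (t i)) : G →* Module.End R (eigenLattice t c) where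
  toFun σ := (ρV σ).restrict fun _ hv => map_mem_eigenLattice (hcomm σ) hv
  map_one' := by
    ext v
    simp
  map_mul' σ τ := by
    ext v
    simp [Module.End.mul_apply]

@[simp]
theorem coe_restrictHom_apply (ρV : G →* Module.End R V)
    (hcomm : ∀ σ i, Commute (ρV σ) (t i)) (σ : G) (v : eigenLattice t c) :
    ((restrictHom t c ρV hcomm σ v : eigenLattice t c) : V) = ρV σ v := rfl

variable {t c}
variable {ρV : G →* Module.End R V} {hcomm : ∀ σ i, Commute (ρV σ) (t i)}

theorem restrictHom_eq_one {σ : G} (h : ρV σ = 1) : restrictHom t c ρV hcomm σ = 1 := by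
  ext v
  rw [coe_restrictHom_apply, h]
  rfl

theorem restrictHom_quadratic {σ : G} (i : ι) (b : R)
    (h : ∀ v : V, ρV σ (ρV σ v) - t i (ρV σ v) + b • v = 0) :
    restrictHom t c ρV hcomm σ * restrictHom t c ρV hcomm σ
      - c i • restrictHom t c ρV hcomm σ
      + b • (1 : Module.End R (eigenLattice t c)) = 0 := by
  refine LinearMap.ext fun v => ?_
  apply Subtype.ext
  have h1 := h (v : V)
  have h3 : t i (ρV σ (v : V)) = c i • ρV σ (v : V) :=
    apply_eq_smul (map_mem_eigenLattice (hcomm σ) v.2) i
  rw [h3] at h1
  simpa [Module.End.mul_apply] using h1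

end Restrict

section Rep

variable {R : Type} [CommRing R] [IsDomain R] [IsPrincipalIdealRing R] [IsLocalRing R]
variable {V : Type} [AddCommGroup V] [Module R V] [Module.Free R V] [Module.Finite R V]
variable {ι : Type*} (t : ι → Module.End R V) (c : ι → R)

local notation "Γℚ" => (AlgebraicClosure ℚ ≃ₐ[ℚ] AlgebraicClosure ℚ)

omit [Module.Finite R V] in
theorem isAdicContinuous_restrictHom (ρV : Γℚ →* Module.End R V)
    (hcomm : ∀ σ i, Commute (ρV σ) (t i)) (hcont : GaloisActionIsAdicContinuous R ρV) :
    GaloisActionIsAdicContinuous R (restrictHom t c ρV hcomm) := by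
  intro n
  obtain ⟨L, hL, h⟩ := hcont n
  refine ⟨L, hL, fun σ hσ v => ?_⟩
  refine mem_smul_top_eigenLattice (maximalIdeal R ^ n) (IsPrincipalIdealRing.principal _) _ ?_
  exact h σ hσ v

/-- The Galois representation carried by an eigen-lattice of rank two. -/
noncomputable def galoisRep (ρV : Γℚ →* Module.End R V)
    (hcomm : ∀ σ i, Commute (ρV σ) (t i)) (hcont : GaloisActionIsAdicContinuous R ρV)
    (h2 : Module.finrank R (eigenLattice t c) = 2) : GaloisRepAdic R where
  V := eigenLattice t c
  finrank_eq := h2
  ρ := restrictHom t c ρV hcomm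
  isAdicContinuous := isAdicContinuous_restrictHom t c ρV hcomm hcont

variable {t c}
variable {ρV : Γℚ →* Module.End R V} {hcomm : ∀ σ i, Commute (ρV σ) (t i)}
variable {hcont : GaloisActionIsAdicContinuous R ρV}
  {h2 : Module.finrank R (eigenLattice t c) = 2}

theorem galoisRep_V : (galoisRep t c ρV hcomm hcont h2).V = eigenLattice t c := rfl

/-- The action on `galoisRep` is the restriction of the action on `V`. -/
theorem galoisRep_apply (σ : Γℚ) (v : eigenLattice t c) :
    ((show eigenLattice t c from (galoisRep t c ρV hcomm hcont h2).ρ σ v) : V) = ρV σ v := rfl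

/-- Triviality is inherited. -/
theorem galoisRep_eq_one {σ : Γℚ} (h : ρV σ = 1) :
    (galoisRep t c ρV hcomm hcont h2).ρ σ = 1 :=
  restrictHom_eq_one (hcomm := hcomm) h

/-- Unramifiedness is inherited. -/
theorem galoisRep_isUnramifiedAt {q : ℕ}
    (h : ∀ P : ValuationSubring (AlgebraicClosure ℚ), P.LiesOverPrime q →
      ∀ σ ∈ P.inertiaSubgroupIn ℚ, ρV σ = 1) :
    (galoisRep t c ρV hcomm hcont h2).IsUnramifiedAt q :=
  fun P hP σ hσ => galoisRep_eq_one (h P hP σ hσ)

/-- A quadratic relation `σ² - t_i σ + b = 0` on `V` becomes `σ² - c_i σ + b = 0` on the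
eigen-lattice. -/
theorem galoisRep_quadratic {σ : Γℚ} (i : ι) (b : R)
    (h : ∀ v : V, ρV σ (ρV σ v) - t i (ρV σ v) + b • v = 0) :
    (galoisRep t c ρV hcomm hcont h2).ρ σ * (galoisRep t c ρV hcomm hcont h2).ρ σ
      - c i • (galoisRep t c ρV hcomm hcont h2).ρ σ
      + b • (1 : Module.End R (galoisRep t c ρV hcomm hcont h2).V) = 0 :=
  restrictHom_quadratic (hcomm := hcomm) i b h

end Rep

section Rank

variable {R : Type*} [CommRing R] [IsDomain R] [IsPrincipalIdealRing R]
variable {V : Type*} [AddCommGroup V] [Module R V] [Module.Free R V] [Module.Finite R V]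
variable {ι : Type*} (t : ι → Module.End R V) (c : ι → R)
variable (K : Type*) [Field K] [Algebra R K] [IsFractionRing R K]
variable {VK : Type*} [AddCommGroup VK] [Module R VK] [Module K VK] [IsScalarTower R K VK]
variable (j : V →ₗ[R] VK) [IsLocalizedModule (nonZeroDivisors R) j]
variable (tK : ι → Module.End K VK)

omit [IsPrincipalIdealRing R] [Module.Free R V] [Module.Finite R V] [IsFractionRing R K]
  [IsLocalizedModule (nonZeroDivisors R) j] [IsDomain R] in
theorem map_mem_eigenLattice_of_localized (htK : ∀ i v, tK i (j v) = j (t i v)) {v : V}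
    (hv : v ∈ eigenLattice t c) :
    j v ∈ eigenLattice tK (fun i => algebraMap R K (c i)) := by
  rw [mem_eigenLattice]
  intro i
  rw [htK, apply_eq_smul hv, map_smul, algebraMap_smul]

omit [IsPrincipalIdealRing R] [Module.Finite R V] [IsFractionRing R K] in
/-- An element of `V` whose image is an eigenvector is in the eigen-lattice. -/
theorem mem_eigenLattice_of_localized (htK : ∀ i v, tK i (j v) = j (t i v)) {v : V}
    (hv : j v ∈ eigenLattice tK (fun i => algebraMap R K (c i))) : v ∈ eigenLattice t c := by
  rw [mem_eigenLattice] at hv ⊢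
  intro i
  have h1 := hv i
  rw [htK, algebraMap_smul, ← map_smul, ← sub_eq_zero, ← map_sub,
    IsLocalizedModule.eq_zero_iff (nonZeroDivisors R)] at h1
  obtain ⟨s, hs⟩ := h1
  have hs0 : (s : R) ≠ 0 := nonZeroDivisors.ne_zero s.2
  rw [Submonoid.smul_def, smul_eq_zero_iff_right hs0, sub_eq_zero] at hs
  exact hs

/-- The localisation map restricted to the eigen-lattices. -/
def eigenMap (htK : ∀ i v, tK i (j v) = j (t i v)) :
    eigenLattice t c →ₗ[R] eigenLattice tK (fun i => algebraMap R K (c i)) where
  toFun v := ⟨j v, map_mem_eigenLattice_of_localized t c K j tK htK v.2⟩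
  map_add' x y := by
    apply Subtype.ext
    simp
  map_smul' r x := by
    apply Subtype.ext
    simp

/-- The rank of the eigen-lattice is the dimension of the eigenspace of the localised operators
over the fraction field. -/
theorem finrank_eigenLattice_eq (htK : ∀ i v, tK i (j v) = j (t i v)) :
    Module.finrank R (eigenLattice t c) =
      Module.finrank K (eigenLattice tK (fun i => algebraMap R K (c i))) := by
  classical
  set b := Module.Free.chooseBasis R (eigenLattice t c) with hb
  set jL := eigenMap t c K j tK htK with hjL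
  let w : Module.Free.ChooseBasisIndex R (eigenLattice t c) →
      eigenLattice tK (fun i => algebraMap R K (c i)) := fun i => jL (b i)
  have hli : LinearIndependent K w := by
    apply LinearIndependent.of_comp (Submodule.subtype _)
    have h1 : LinearIndependent R (fun i => ((b i : eigenLattice t c) : V)) :=
      b.linearIndependent.map' (Submodule.subtype _) (Submodule.ker_subtype _)
    exact h1.of_isLocalizedModule K (nonZeroDivisors R) j
  have hsp : ⊤ ≤ Submodule.span K (Set.range w) := by
    rintro ⟨x, hx⟩ -
    obtain ⟨⟨v, s⟩, hs⟩ := IsLocalizedModule.surj (nonZeroDivisors R) j x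
    simp only at hs
    have hs0 : (s : R) ≠ 0 := nonZeroDivisors.ne_zero s.2
    have hsK : algebraMap R K (s : R) ≠ 0 := by
      rwa [Ne, map_eq_zero_iff _ (IsFractionRing.injective R K)]
    have hvL : v ∈ eigenLattice t c := by
      apply mem_eigenLattice_of_localized t c K j tK htK
      rw [← hs, Submonoid.smul_def, ← algebraMap_smul K (s : R) x]
      exact Submodule.smul_mem _ _ hx
    have hrepr : (⟨v, hvL⟩ : eigenLattice t c) ∈ Submodule.span R (Set.range b) := by
      rw [b.span_eq]
      exact Submodule.mem_top
    have hx' : (⟨x, hx⟩ : eigenLattice tK (fun i => algebraMap R K (c i))) =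
        (algebraMap R K (s : R))⁻¹ • jL ⟨v, hvL⟩ := by
      apply Subtype.ext
      change x = (algebraMap R K (s : R))⁻¹ • j v
      rw [← hs, Submonoid.smul_def, ← algebraMap_smul K (s : R) x, smul_smul,
        inv_mul_cancel₀ hsK, one_smul]
    rw [hx']
    refine Submodule.smul_mem _ _ ?_
    have h1 := Submodule.apply_mem_span_image_of_mem_span jL hrepr
    have h2 : jL '' Set.range b = Set.range w := by
      rw [← Set.range_comp]
      rfl
    rw [h2] at h1
    exact Submodule.span_le_restrictScalars R K _ h1
  rw [Module.finrank_eq_card_chooseBasisIndex,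
    Module.finrank_eq_card_basis (Module.Basis.mk hli hsp)]

end Rank

end Fermat.Agent.S30.Padic.EigenLattice
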